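/-
P10 / G7 WP-E (helper2): the tame character of level two.

`π₀ ^ (p² - 1) = -p`.  The inertia group acts on `π₀` through the character
`ϑ(τ) = τ π₀ / π₀` with values in the `(p² - 1)`-th roots of unity; the stabiliser `ssFix` of `π₀`
in `I` has finite index dividing `p² - 1`.
-/
import Fermat.Agent.Lib.TW.Flat.Place
import Fermat.Agent.Lib.TW.LF.Count

set_option autoImplicit false
set_option linter.style.haveILetI false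

namespace Fermat.Agent.TW

open Fermat.Agent.S05Lib

local notation "Qb" => AlgebraicClosure ℚ
local notation "GQ" => (AlgebraicClosure ℚ ≃ₐ[ℚ] AlgebraicClosure ℚ)

namespace FFPlace

variable (𝔓 : FFPlace)

lemma ss_sq_sub_one_pos : 0 < 𝔓.p ^ 2 - 1 := by
  have : 2 ≤ 𝔓.p := 𝔓.hp.two_le
  have : 4 ≤ 𝔓.p ^ 2 := by nlinarith
  omega

lemma ss_coprime : (𝔓.p ^ 2 - 1).Coprime 𝔓.p := by
  have h1 : 1 ≤ 𝔓.p ^ 2 := Nat.one_le_pow _ _ 𝔓.hp.pos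
  rw [Nat.coprime_comm, Nat.Prime.coprime_iff_not_dvd 𝔓.hp]
  intro h
  have h2 : 𝔓.p ∣ 𝔓.p ^ 2 := dvd_pow_self _ (by norm_num)
  have h3 : 𝔓.p ∣ 𝔓.p ^ 2 - (𝔓.p ^ 2 - 1) := Nat.dvd_sub h2 h
  have h4 : 𝔓.p ^ 2 - (𝔓.p ^ 2 - 1) = 1 := by omega
  rw [h4] at h3
  exact 𝔓.hp.one_lt.ne' (Nat.dvd_one.mp h3)

variable {𝔓} {π₀ : Qb}

lemma ss_pi_ne_zero (hπ₀ : π₀ ^ (𝔓.p ^ 2 - 1) = -(𝔓.p : Qb)) : π₀ ≠ 0 := by
  rintro rfl
  rw [zero_pow 𝔓.ss_sq_sub_one_pos.ne'] at hπ₀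
  exact 𝔓.p_ne_zero (neg_eq_zero.mp hπ₀.symm)

lemma ss_theta_pow (hπ₀ : π₀ ^ (𝔓.p ^ 2 - 1) = -(𝔓.p : Qb)) (τ : GQ) :
    (τ π₀ / π₀) ^ (𝔓.p ^ 2 - 1) = 1 := by
  rw [div_pow, ← map_pow, hπ₀, map_neg, map_natCast]
  exact div_self (neg_ne_zero.mpr 𝔓.p_ne_zero)

lemma ss_theta_fixed (hπ₀ : π₀ ^ (𝔓.p ^ 2 - 1) = -(𝔓.p : Qb)) {σ : GQ} (hσ : σ ∈ 𝔓.I)
    (τ : GQ) : σ (τ π₀ / π₀) = τ π₀ / π₀ :=
  tame_inertia_fixes_rootOfUnity 𝔓.hp 𝔓.hP hσ 𝔓.ss_coprime (ss_theta_pow hπ₀ τ)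

lemma ss_theta_mul (hπ₀ : π₀ ^ (𝔓.p ^ 2 - 1) = -(𝔓.p : Qb)) {σ : GQ} (hσ : σ ∈ 𝔓.I)
    (τ : GQ) : (σ * τ) π₀ / π₀ = (σ π₀ / π₀) * (τ π₀ / π₀) := by
  have h0 := ss_pi_ne_zero hπ₀
  have h1 : τ π₀ = (τ π₀ / π₀) * π₀ := by field_simp
  rw [AlgEquiv.mul_apply]
  conv_lhs => rw [h1, map_mul, ss_theta_fixed hπ₀ hσ τ]
  field_simp

lemma ss_theta_one : (1 : GQ) π₀ / π₀ = 1 ∨ π₀ = 0 := by
  by_cases h : π₀ = 0
  · exact Or.inr h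
  · left; rw [AlgEquiv.one_apply, div_self h]

/-- the tame character of level two as a homomorphism -/
noncomputable def ssTheta (hπ₀ : π₀ ^ (𝔓.p ^ 2 - 1) = -(𝔓.p : Qb)) : ↥𝔓.I →* Qbˣ where
  toFun τ := Units.mk0 ((τ : GQ) π₀ / π₀) (by
    have h0 := ss_pi_ne_zero hπ₀
    exact div_ne_zero ((map_ne_zero_iff _ (τ : GQ).injective).mpr h0) h0)
  map_one' := by
    apply Units.ext
    simp [div_self (ss_pi_ne_zero hπ₀)]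
  map_mul' σ τ := by
    apply Units.ext
    simp only [Units.val_mk0, Units.val_mul]
    exact ss_theta_mul hπ₀ σ.2 τ

lemma ssTheta_val (hπ₀ : π₀ ^ (𝔓.p ^ 2 - 1) = -(𝔓.p : Qb)) (τ : ↥𝔓.I) :
    ((ssTheta hπ₀ τ : Qbˣ) : Qb) = (τ : GQ) π₀ / π₀ := rfl

/-- the stabiliser of `π₀` in the inertia group -/
noncomputable def ssFix (hπ₀ : π₀ ^ (𝔓.p ^ 2 - 1) = -(𝔓.p : Qb)) : Subgroup ↥𝔓.I :=
  (ssTheta hπ₀).ker

lemma mem_ssFix (hπ₀ : π₀ ^ (𝔓.p ^ 2 - 1) = -(𝔓.p : Qb)) (τ : ↥𝔓.I) :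
    τ ∈ ssFix hπ₀ ↔ (τ : GQ) π₀ = π₀ := by
  unfold ssFix
  rw [MonoidHom.mem_ker, Units.ext_iff, ssTheta_val, Units.val_one,
    div_eq_one_iff_eq (ss_pi_ne_zero hπ₀)]

lemma ss_range_finite (hπ₀ : π₀ ^ (𝔓.p ^ 2 - 1) = -(𝔓.p : Qb)) :
    Finite ↥(ssTheta hπ₀).range := by
  have hle : (ssTheta hπ₀).range ≤ rootsOfUnity (𝔓.p ^ 2 - 1) Qb := by
    rintro _ ⟨τ, rfl⟩
    rw [mem_rootsOfUnity]
    apply Units.ext
    rw [Units.val_pow_eq_pow_val, ssTheta_val, Units.val_one]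
    exact ss_theta_pow hπ₀ _
  haveI : NeZero (𝔓.p ^ 2 - 1) := ⟨𝔓.ss_sq_sub_one_pos.ne'⟩
  exact Finite.of_injective (Subgroup.inclusion hle) (Subgroup.inclusion_injective hle)

instance ssFix_finiteIndex (hπ₀ : π₀ ^ (𝔓.p ^ 2 - 1) = -(𝔓.p : Qb)) :
    (ssFix hπ₀).FiniteIndex := by
  haveI := ss_range_finite hπ₀
  constructor
  unfold ssFix
  rw [Subgroup.index_ker]
  exact Nat.card_pos.ne'

lemma ssFix_index_dvd (hπ₀ : π₀ ^ (𝔓.p ^ 2 - 1) = -(𝔓.p : Qb)) :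
    (ssFix hπ₀).index ∣ 𝔓.p ^ 2 - 1 := by
  haveI := ss_range_finite hπ₀
  unfold ssFix
  rw [Subgroup.index_ker]
  haveI : IsCyclic ↥(ssTheta hπ₀).range := isCyclic_subgroup_units _
  rw [← IsCyclic.exponent_eq_card]
  apply Monoid.exponent_dvd_of_forall_pow_eq_one
  rintro ⟨_, τ, rfl⟩
  apply Subtype.ext
  apply Units.ext
  simp only [SubmonoidClass.coe_pow, Units.val_pow_eq_pow_val, ssTheta_val, OneMemClass.coe_one,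
    Units.val_one]
  exact ss_theta_pow hπ₀ _

variable (𝔓) in
/-- `ch` is a fundamental character of level two (up to a Frobenius twist) with values in `k`:
multiplicative on inertia, and the `ℤ`-linear relations between its values are exactly the
relations between the values of the tame character `τ ↦ τ π₀ / π₀` modulo the maximal ideal.
This is what the jets of a flat module of uniform order `1/(p² - 1)` produce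
(`UniformOrd.sum_act_eq_zero`, `UniformOrd.jet_gt_of_sum_act_eq_zero`). -/
def LFFund {k : Type*} [Field k] (π₀ : Qb) (ch : GQ → k) : Prop :=
  (∀ σ ∈ 𝔓.I, ∀ τ ∈ 𝔓.I, ch (σ * τ) = ch σ * ch τ) ∧
  ∀ (t : Finset GQ) (n : GQ → ℤ), (∀ σ ∈ t, σ ∈ 𝔓.I) →
    (∑ σ ∈ t, (n σ : k) * ch σ = 0 ↔ 𝔓.v.Gt (∑ σ ∈ t, (n σ : Qb) * (σ π₀ / π₀)) 0)

end FFPlace

end Fermat.Agent.TW
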