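/-
P10 / G7 WP-E (helper2): the upper bound `ord ≤ 1/(p² - 1)` for the points of flat modules of
"level two".

* `FFModel.sub`: restriction of a model to an inertia-stable subgroup;
* `FFModel.exists_minimal_stable`: minimal non-zero inertia-stable subgroups;
* **`FFModel.ss_not_ordGT`** (N1'): let `X` be killed by `p`, let the stabiliser of `π₀`
  (`π₀ ^ (p² - 1) = -p`) in `I` act trivially and assume that no non-zero point of `X` is
  `ω`-isotypic.  Then every non-zero point has order `≤ 1/(p² - 1)`.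
-/
import Fermat.Agent.Lib.TW.Flat.SS.Tame

set_option autoImplicit false
set_option linter.style.haveILetI false

namespace Fermat.Agent.TW

open Fermat.Agent.S05Lib

local notation "Qb" => AlgebraicClosure ℚ
local notation "GQ" => (AlgebraicClosure ℚ ≃ₐ[ℚ] AlgebraicClosure ℚ)

namespace FFModel

variable {𝔓 : FFPlace} {X : Type*} [AddCommGroup X] {act : GQ → X →+ X}

/-! ### consequences of separation -/

lemma act_one (M : FFModel 𝔓 X act) (x : X) : act 1 x = x := by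
  by_contra hne
  obtain ⟨f, hf, hfne⟩ := M.separates _ _ hne
  apply hfne
  rw [M.equivariant f hf 1 𝔓.I.one_mem]
  simp

lemma act_mul (M : FFModel 𝔓 X act) {σ τ : GQ} (hσ : σ ∈ 𝔓.I) (hτ : τ ∈ 𝔓.I) (x : X) :
    act (σ * τ) x = act σ (act τ x) := by
  by_contra hne
  obtain ⟨f, hf, hfne⟩ := M.separates _ _ hne
  apply hfne
  rw [M.equivariant f hf _ (𝔓.I.mul_mem hσ hτ), M.equivariant f hf σ hσ,
    M.equivariant f hf τ hτ]
  rfl

/-! ### restriction to a stable subgroup -/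

/-- the action of inertia on a stable subgroup -/
noncomputable def subAct (S : AddSubgroup X) (hS : ∀ σ ∈ 𝔓.I, ∀ x ∈ S, act σ x ∈ S) :
    GQ → ↥S →+ ↥S := by
  classical
  exact fun σ =>
    if hσ : σ ∈ 𝔓.I then ((act σ).comp S.subtype).codRestrict S (fun x => hS σ hσ x x.2)
    else AddMonoidHom.id ↥S

lemma subAct_apply (S : AddSubgroup X) (hS : ∀ σ ∈ 𝔓.I, ∀ x ∈ S, act σ x ∈ S) {σ : GQ}
    (hσ : σ ∈ 𝔓.I) (x : ↥S) : ((subAct S hS σ x : ↥S) : X) = act σ (x : X) := by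
  unfold subAct
  rw [dif_pos hσ]
  rfl

variable (M : FFModel 𝔓 X act)

/-- the restriction of a model to an inertia-stable subgroup -/
noncomputable def sub (S : AddSubgroup X) (hS : ∀ σ ∈ 𝔓.I, ∀ x ∈ S, act σ x ∈ S) :
    FFModel 𝔓 ↥S (subAct S hS) :=
  M.comap S.subtype Subtype.val_injective (fun _ hσ y => subAct_apply S hS hσ y)

lemma ordGE_sub_iff (S : AddSubgroup X) (hS : ∀ σ ∈ 𝔓.I, ∀ x ∈ S, act σ x ∈ S) (y : ↥S)
    (s : ℚ) : (M.sub S hS).OrdGE y s ↔ M.OrdGE (y : X) s :=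
  ordGE_comap_iff _ _ _ y s

lemma ordGT_sub_iff (S : AddSubgroup X) (hS : ∀ σ ∈ 𝔓.I, ∀ x ∈ S, act σ x ∈ S) (y : ↥S)
    (s : ℚ) : (M.sub S hS).OrdGT y s ↔ M.OrdGT (y : X) s :=
  ordGT_comap_iff _ _ _ y s

/-- minimal non-zero inertia-stable subgroups exist -/
lemma exists_minimal_stable [Finite X] (A : AddSubgroup X) (hA : A ≠ ⊥)
    (hAs : ∀ σ ∈ 𝔓.I, ∀ x ∈ A, act σ x ∈ A) :
    ∃ S : AddSubgroup X, S ≤ A ∧ S ≠ ⊥ ∧ (∀ σ ∈ 𝔓.I, ∀ x ∈ S, act σ x ∈ S) ∧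
      ∀ S' : AddSubgroup X, S' ≤ S → (∀ σ ∈ 𝔓.I, ∀ x ∈ S', act σ x ∈ S') →
        S' = ⊥ ∨ S' = S := by
  classical
  haveI : Finite (AddSubgroup X) :=
    Finite.of_injective (fun S : AddSubgroup X => (S : Set X)) SetLike.coe_injective
  let P : Set (AddSubgroup X) :=
    {S | S ≤ A ∧ S ≠ ⊥ ∧ ∀ σ ∈ 𝔓.I, ∀ x ∈ S, act σ x ∈ S}
  have hne : P.Nonempty := ⟨A, le_rfl, hA, hAs⟩
  obtain ⟨S, hSP, hmin⟩ := wellFounded_lt.has_min P hne
  refine ⟨S, hSP.1, hSP.2.1, hSP.2.2, fun S' hS'le hS's => ?_⟩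
  by_cases h0 : S' = ⊥
  · exact Or.inl h0
  · right
    by_contra hne'
    exact hmin S' ⟨hS'le.trans hSP.1, h0, hS's⟩ (lt_of_le_of_ne hS'le hne')

/-- arithmetic: `n ≡ 1 mod p`, `1 < n ≤ p + 1` forces `n = p + 1` -/
lemma ss_arith {p d m : ℤ} (hp : 2 ≤ p) (hd : 0 < d) (hdvd : d ∣ p ^ 2 - 1) (hm : 0 < m)
    (h1 : p ∣ d + m) (h2 : m * (p - 1) ≤ d) (h3 : d < m * (p ^ 2 - 1)) :
    m * (p ^ 2 - 1) = d * (p + 1) := by
  obtain ⟨c, hc⟩ := hdvd
  have hc0 : 0 < c := by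
    by_contra h
    push Not at h
    have : d * c ≤ 0 := mul_nonpos_of_nonneg_of_nonpos hd.le h
    nlinarith
  set n := m * c with hn
  -- `p ∣ n - 1`
  have h4 : p ∣ n - 1 := by
    obtain ⟨t, ht⟩ := h1
    refine ⟨t * c - p, ?_⟩
    have : n - 1 = (d + m) * c - (p ^ 2 - 1) - 1 := by rw [hc, hn]; ring
    rw [this, ht, hc]
    ring_nf
    nlinarith [hc]
  -- `n ≤ p + 1`
  have h5 : n * (p - 1) ≤ (p + 1) * (p - 1) := by
    have : n * (p - 1) = (m * (p - 1)) * c := by rw [hn]; ring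
    rw [this]
    calc m * (p - 1) * c ≤ d * c := by nlinarith
      _ = (p + 1) * (p - 1) := by rw [← hc]; ring
  have h6 : n ≤ p + 1 := by
    by_contra h
    push Not at h
    nlinarith
  -- `1 < n`
  have h7 : 1 < n := by
    have : d * 1 < d * n := by
      calc d * 1 = d := mul_one d
        _ < m * (p ^ 2 - 1) := h3
        _ = d * n := by rw [hc, hn]; ring
    exact lt_of_mul_lt_mul_left this hd.le
  obtain ⟨t, ht⟩ := h4
  have ht1 : 0 < t := by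
    by_contra h
    push Not at h
    nlinarith
  have ht2 : t ≤ 1 := by
    by_contra h
    push Not at h
    nlinarith
  have ht3 : t = 1 := le_antisymm ht2 ht1
  have hn' : n = p + 1 := by rw [ht3] at ht; linarith
  calc m * (p ^ 2 - 1) = d * n := by rw [hc, hn]; ring
    _ = d * (p + 1) := by rw [hn']

/-- **(N1')** -/
theorem ss_not_ordGT (M : FFModel 𝔓 X act) (hU : 𝔓.Unr) [Finite X] {π₀ ζ : Qb}
    (hπ₀ : π₀ ^ (𝔓.p ^ 2 - 1) = -(𝔓.p : Qb)) (hζ : IsPrimitiveRoot ζ 𝔓.p)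
    (hpX : ∀ x : X, 𝔓.p • x = 0)
    (hfix : ∀ τ ∈ 𝔓.I, τ π₀ = π₀ → ∀ x, act τ x = x)
    (hω : ∀ x : X, (∀ g ∈ 𝔓.I, ∀ a : ℕ, g ζ = ζ ^ a → act g x = a • x) → x = 0)
    {z : X} (hz : z ≠ 0) : ¬ M.OrdGT z (1 / ((𝔓.p : ℚ) ^ 2 - 1)) := by
  classical
  intro hgt
  have hp2' : (2 : ℚ) ≤ 𝔓.p := by exact_mod_cast 𝔓.hp.two_le
  have hpp : (0 : ℚ) < (𝔓.p : ℚ) ^ 2 - 1 := by nlinarith
  set s₀ : ℚ := 1 / ((𝔓.p : ℚ) ^ 2 - 1) with hs₀
  have hs₀pos : 0 < s₀ := div_pos one_pos hpp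
  -- a minimal stable subgroup inside `{ord > s₀}`
  have hA : M.gtSub s₀ ≠ ⊥ := by
    intro h
    have : z ∈ M.gtSub s₀ := hgt
    rw [h, AddSubgroup.mem_bot] at this
    exact hz this
  obtain ⟨S, hSA, hS0, hSs, hSmin⟩ := exists_minimal_stable (M.gtSub s₀) hA
    (fun σ hσ x hx => OrdGT.act_mem hx hσ)
  set N := M.sub S hSs with hN
  obtain ⟨y₀, hy₀S, hy₀⟩ : ∃ y ∈ S, y ≠ 0 := by
    by_contra h
    push Not at h
    exact hS0 ((AddSubgroup.eq_bot_iff_forall S).mpr h)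
  set y : ↥S := ⟨y₀, hy₀S⟩ with hy
  have hy0 : y ≠ 0 := fun h => hy₀ (congrArg Subtype.val h)
  have hyS₀ : N.OrdGT y s₀ := (M.ordGT_sub_iff S hSs y s₀).mpr (hSA hy₀S)
  have hygt0 : N.OrdGT y 0 := fun f hf hf0 => (hyS₀ f hf hf0).mono hs₀pos.le
  -- simplicity
  have hsimple : ∀ A : AddSubgroup ↥S, (∀ σ ∈ 𝔓.I, ∀ x ∈ A, subAct S hSs σ x ∈ A) →
      (∀ φ ∈ (∅ : Set (↥S →+ ↥S)), ∀ x ∈ A, φ x ∈ A) → A = ⊥ ∨ A = ⊤ := by
    intro A hAst _
    have h1 : A.map S.subtype ≤ S := by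
      rintro _ ⟨x, -, rfl⟩
      exact x.2
    have h2 : ∀ σ ∈ 𝔓.I, ∀ x ∈ A.map S.subtype, act σ x ∈ A.map S.subtype := by
      rintro σ hσ _ ⟨x, hx, rfl⟩
      exact ⟨subAct S hSs σ x, hAst σ hσ x hx, subAct_apply S hSs hσ x⟩
    rcases hSmin _ h1 h2 with h | h
    · left
      rw [AddSubgroup.eq_bot_iff_forall]
      intro x hx
      have : (x : X) ∈ A.map S.subtype := ⟨x, hx, rfl⟩
      rw [h, AddSubgroup.mem_bot] at this
      exact Subtype.ext this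
    · right
      rw [AddSubgroup.eq_top_iff']
      intro x
      have : (x : X) ∈ A.map S.subtype := by rw [h]; exact x.2
      obtain ⟨x', hx', hxx'⟩ := this
      have : x' = x := Subtype.ext hxx'
      rwa [← this]
  obtain ⟨s, hs, hu⟩ := exists_uniformOrd (M := N) (∅ : Set (↥S →+ ↥S))
    (fun φ hφ => absurd hφ (Set.notMem_empty φ)) hsimple hy0 hygt0
  obtain ⟨hge, f, hf, hfy⟩ := hu y hy0
  -- `s₀ < s`
  have hss₀ : s₀ < s := by
    rcases hyS₀ f hf.1 hf.2 with h | h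
    · exact absurd h hfy.1
    · rwa [hfy.2] at h
  -- the arithmetic of characters
  have hH : ∀ σ ∈ FFPlace.ssFix hπ₀, ∀ x : ↥S, subAct S hSs (σ : GQ) x = x := by
    intro σ hσ x
    apply Subtype.ext
    rw [subAct_apply S hSs σ.2]
    exact hfix σ σ.2 ((FFPlace.mem_ssFix hπ₀ σ).mp hσ) x
  have hpy : 𝔓.p • y = 0 := Subtype.ext (hpX y₀)
  obtain ⟨m, hm0, hsm, hdvd, hle⟩ :=
    char_arith (M := N) hU (FFPlace.ssFix hπ₀) hH hpy hs hge hf hfy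
  set d : ℕ := (FFPlace.ssFix hπ₀).index with hd
  have hd0 : 0 < d := Nat.pos_of_ne_zero Subgroup.FiniteIndex.index_ne_zero
  have hddvd : (d : ℤ) ∣ (𝔓.p : ℤ) ^ 2 - 1 := by
    have h1 := FFPlace.ssFix_index_dvd hπ₀
    have h2 : ((𝔓.p ^ 2 - 1 : ℕ) : ℤ) = (𝔓.p : ℤ) ^ 2 - 1 := by
      have : 1 ≤ 𝔓.p ^ 2 := Nat.one_le_pow _ _ 𝔓.hp.pos
      push_cast [Nat.cast_sub this]
      ring
    rw [← h2]
    exact_mod_cast h1
  have hdq : (0 : ℚ) < d := by exact_mod_cast hd0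
  have h3 : (d : ℤ) < m * ((𝔓.p : ℤ) ^ 2 - 1) := by
    have : (d : ℚ) < m * ((𝔓.p : ℚ) ^ 2 - 1) := by
      rw [← hsm]
      have h0 : s₀ * ((𝔓.p : ℚ) ^ 2 - 1) = 1 := by rw [hs₀]; field_simp
      have h1 : 1 < s * ((𝔓.p : ℚ) ^ 2 - 1) := by
        have := mul_lt_mul_of_pos_right hss₀ hpp
        rwa [h0] at this
      have h2 : s * (d : ℚ) * ((𝔓.p : ℚ) ^ 2 - 1) = (d : ℚ) * (s * ((𝔓.p : ℚ) ^ 2 - 1)) := by ring
      rw [h2]
      nlinarith
    exact_mod_cast this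
  have harith := ss_arith (p := (𝔓.p : ℤ)) (by exact_mod_cast 𝔓.hp.two_le)
    (by exact_mod_cast hd0) hddvd hm0 hdvd hle h3
  have hs_eq : s = 1 / ((𝔓.p : ℚ) - 1) := by
    have h4 : (m : ℚ) * ((𝔓.p : ℚ) ^ 2 - 1) = d * ((𝔓.p : ℚ) + 1) := by exact_mod_cast harith
    have h5 : s = m / d := by rw [← hsm]; field_simp
    rw [h5, div_eq_div_iff hdq.ne' (by linarith)]
    have : ((𝔓.p : ℚ) ^ 2 - 1) = ((𝔓.p : ℚ) - 1) * ((𝔓.p : ℚ) + 1) := by ring
    rw [this] at h4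
    have hp1 : ((𝔓.p : ℚ) + 1) ≠ 0 := by linarith
    apply mul_right_cancel₀ hp1
    linarith
  -- jets with `ϖ = ζ - 1`: inertia acts on `S` through `ω`
  have hϖ : 𝔓.v.Is (ζ - 1) s := by
    rw [hs_eq]
    exact 𝔓.lf_is_zeta_sub_one hζ
  apply hy₀
  apply hω y₀
  intro g hg a hga
  have hjet := 𝔓.lf_gt_apply_zeta_sub_one hζ hga
  have h6 := hu.sum_act_eq_zero hs hϖ (Finset.univ : Finset (Fin 2)) ![g, 1]
    (by
      intro i _
      fin_cases i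
      · exact hg
      · exact 𝔓.I.one_mem)
    ![1, -(a : ℤ)]
    (by
      rw [Fin.sum_univ_two]
      simp only [Matrix.cons_val_zero, Matrix.cons_val_one, Int.cast_one, one_mul, Int.cast_neg,
        Int.cast_natCast, AlgEquiv.one_apply]
      rw [div_self hϖ.1, mul_one, ← sub_eq_add_neg]
      exact hjet)
    y
  rw [Fin.sum_univ_two] at h6
  simp only [Matrix.cons_val_zero, Matrix.cons_val_one, one_smul, neg_smul, natCast_zsmul] at h6
  have h7 := congrArg (Subtype.val : ↥S → X) h6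
  rw [AddSubgroup.coe_add, AddSubgroup.coe_neg, AddSubgroup.coe_nsmul, subAct_apply S hSs hg,
    subAct_apply S hSs 𝔓.I.one_mem, M.act_one, ZeroMemClass.coe_zero, ← sub_eq_add_neg,
    sub_eq_zero] at h7
  exact h7

end FFModel

end Fermat.Agent.TW
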