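/-
P10 / G7 WP-E (helper2): the abstract core of (E-eps) and (E-top).

A point `y` of a flat module all of whose coordinates are moved by `τ ∈ I` by at least `c > 1/(p²-1)`
is fixed by `τ`, provided `τ y - y` lies in an `I`-stable subgroup which is killed by `p`, on which
the stabiliser of `π₀` acts trivially and which has no `ω`-isotypic point (N1' = `ss_not_ordGT`).
-/
import Fermat.Agent.Lib.TW.Flat.SS.Bound

set_option autoImplicit false
set_option linter.style.haveILetI false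

namespace Fermat.Agent.TW

open Fermat.Agent.S05Lib

local notation "Qb" => AlgebraicClosure ℚ
local notation "GQ" => (AlgebraicClosure ℚ ≃ₐ[ℚ] AlgebraicClosure ℚ)

namespace FFModel

variable {𝔓 : FFPlace} {X : Type*} [AddCommGroup X] {act : GQ → X →+ X}

/-- the abstract core of (E-eps)/(E-top) -/
theorem ss_core (M : FFModel 𝔓 X act) (hU : 𝔓.Unr) [Finite X] {π₀ ζ : Qb}
    (hπ₀ : π₀ ^ (𝔓.p ^ 2 - 1) = -(𝔓.p : Qb)) (hζ : IsPrimitiveRoot ζ 𝔓.p)
    (S : AddSubgroup X) (hS : ∀ σ ∈ 𝔓.I, ∀ x ∈ S, act σ x ∈ S)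
    (hpS : ∀ x ∈ S, 𝔓.p • x = 0)
    (hfix : ∀ τ ∈ 𝔓.I, τ π₀ = π₀ → ∀ x ∈ S, act τ x = x)
    (hω : ∀ x ∈ S, (∀ g ∈ 𝔓.I, ∀ a : ℕ, g ζ = ζ ^ a → act g x = a • x) → x = 0)
    {y : X} {τ : GQ} (hτ : τ ∈ 𝔓.I) {c : ℚ} (hc : 1 / ((𝔓.p : ℚ) ^ 2 - 1) < c)
    (hmove : ∀ f ∈ M.carrier, 𝔓.v.Ge (τ (f y) - f y) c)
    (hyS : act τ y - y ∈ S) : act τ y = y := by
  by_contra hne
  set z : ↥S := ⟨act τ y - y, hyS⟩ with hz
  have hz0 : z ≠ 0 := by
    intro h0
    apply hne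
    have : (z : X) = 0 := by rw [h0]; rfl
    exact sub_eq_zero.1 this
  have hJ : M.OrdGE (act τ y - y) c := ordGE_act_sub hτ hmove
  have hgt : (M.sub S hS).OrdGT z (1 / ((𝔓.p : ℚ) ^ 2 - 1)) := by
    rw [ordGT_sub_iff]
    exact hJ.gt hc
  refine ss_not_ordGT (M.sub S hS) hU hπ₀ hζ ?_ ?_ ?_ hz0 hgt
  · intro x
    apply Subtype.ext
    have := hpS x.1 x.2
    simpa using this
  · intro σ hσ hσπ x
    apply Subtype.ext
    rw [subAct_apply S hS hσ]
    exact hfix σ hσ hσπ x.1 x.2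
  · intro x hx
    apply Subtype.ext
    refine hω x.1 x.2 fun g hg a hga => ?_
    have := hx g hg a hga
    have h2 := congrArg (Subtype.val) this
    rw [subAct_apply S hS hg] at h2
    simpa using h2

end FFModel

end Fermat.Agent.TW
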