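/-
P10 / G7 WP-E (helper2): linear algebra in dimension two.
-/
import Mathlib

set_option autoImplicit false

namespace Fermat.Agent.TW

section

variable {k V : Type*} [Field k] [AddCommGroup V] [Module k V]

/-- a proper non-zero subspace of a plane is a line -/
lemma ss_line_of_proper [Module.Finite k V] (h2 : Module.finrank k V = 2) (L : Submodule k V)
    (h0 : L ≠ ⊥) (h1 : L ≠ ⊤) :
    ∃ e ∈ L, e ≠ 0 ∧ ∀ w ∈ L, ∃ c : k, w = c • e := by
  have hlt : Module.finrank k L < 2 := by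
    rw [← h2]; exact Submodule.finrank_lt h1
  have hpos : 0 < Module.finrank k L := by
    rw [Module.finrank_pos_iff_exists_ne_zero]
    obtain ⟨x, hx, hx0⟩ := Submodule.exists_mem_ne_zero_of_ne_bot h0
    exact ⟨⟨x, hx⟩, fun h => hx0 (congrArg Subtype.val h)⟩
  have h1' : Module.finrank k L = 1 := by omega
  obtain ⟨e, he0, he⟩ := finrank_eq_one_iff'.mp h1'
  refine ⟨e, e.2, fun h => he0 (Subtype.ext h), fun w hw => ?_⟩
  obtain ⟨c, hc⟩ := he ⟨w, hw⟩
  exact ⟨c, by rw [← Subtype.coe_mk w hw, ← hc]; rfl⟩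

/-- a non-scalar endomorphism of a plane with an eigenvector `v`: every vector of the same
eigenspace is a multiple of `v` -/
lemma ss_eigenspace_line [Module.Finite k V] (h2 : Module.finrank k V = 2) (A : V →ₗ[k] V)
    (hA : ∀ c : k, A ≠ c • LinearMap.id) {α : k} {v : V} (hv0 : v ≠ 0) (hv : A v = α • v)
    {w : V} (hw : A w = α • w) : ∃ c : k, w = c • v := by
  set E : Submodule k V := LinearMap.ker (A - α • LinearMap.id) with hE
  have hvE : v ∈ E := by
    rw [hE, LinearMap.mem_ker]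
    simp [hv]
  have hwE : w ∈ E := by
    rw [hE, LinearMap.mem_ker]
    simp [hw]
  have h0 : E ≠ ⊥ := fun h => hv0 (by rw [h] at hvE; exact (Submodule.mem_bot k).mp hvE)
  have h1 : E ≠ ⊤ := by
    intro h
    apply hA α
    ext x
    have : x ∈ E := by rw [h]; trivial
    rw [hE, LinearMap.mem_ker] at this
    simpa [sub_eq_zero] using this
  obtain ⟨e, heE, he0, he⟩ := ss_line_of_proper h2 E h0 h1
  obtain ⟨a, ha⟩ := he v hvE
  obtain ⟨b, hb⟩ := he w hwE
  have ha0 : a ≠ 0 := by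
    rintro rfl
    rw [zero_smul] at ha
    exact hv0 ha
  refine ⟨b * a⁻¹, ?_⟩
  rw [hb, ha, smul_smul, mul_assoc, inv_mul_cancel₀ ha0, mul_one]

/-- commuting endomorphisms of a plane, each with an eigenvector, have a common eigenvector -/
theorem ss_common_eigenvector [Module.Finite k V] (h2 : Module.finrank k V = 2)
    (S : Set (V →ₗ[k] V)) (hcomm : ∀ A ∈ S, ∀ B ∈ S, A ∘ₗ B = B ∘ₗ A)
    (heig : ∀ A ∈ S, ∃ (α : k) (v : V), v ≠ 0 ∧ A v = α • v) :
    ∃ v : V, v ≠ 0 ∧ ∀ A ∈ S, ∃ x : k, A v = x • v := by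
  by_cases hsc : ∀ A ∈ S, ∃ c : k, A = c • LinearMap.id
  · have hpos : 0 < Module.finrank k V := by omega
    obtain ⟨v, hv⟩ := Module.finrank_pos_iff_exists_ne_zero.mp hpos
    refine ⟨v, hv, fun A hA => ?_⟩
    obtain ⟨c, rfl⟩ := hsc A hA
    exact ⟨c, by simp⟩
  · push Not at hsc
    obtain ⟨A, hAS, hA⟩ := hsc
    obtain ⟨α, v, hv0, hv⟩ := heig A hAS
    refine ⟨v, hv0, fun B hB => ?_⟩
    have h1 : A (B v) = α • B v := by
      have := congrArg (fun T : V →ₗ[k] V => T v) (hcomm A hAS B hB)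
      simp only [LinearMap.comp_apply] at this
      rw [this, hv, map_smul]
    obtain ⟨c, hc⟩ := ss_eigenspace_line h2 A hA hv0 hv h1
    exact ⟨c, hc⟩

end

section Matrix

open Polynomial

variable {k : Type*} [Field k]

/-- a matrix with split characteristic polynomial has an eigenvector -/
lemma ss_exists_eigenvector {A : Matrix (Fin 2) (Fin 2) k} {α β : k}
    (h : A.charpoly = (X - C α) * (X - C β)) : ∃ v : Fin 2 → k, v ≠ 0 ∧ A.mulVec v = α • v := by
  have h1 : (Matrix.scalar (Fin 2) α - A).det = 0 := by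
    rw [← Matrix.eval_charpoly, h]
    simp
  obtain ⟨v, hv0, hv⟩ := Matrix.exists_mulVec_eq_zero_iff.mpr h1
  refine ⟨v, hv0, ?_⟩
  rw [Matrix.sub_mulVec] at hv
  have h2 : (Matrix.scalar (Fin 2) α).mulVec v = α • v := by
    ext i
    simp [Matrix.mulVec, dotProduct, Matrix.diagonal]
  rw [h2, sub_eq_zero] at hv
  exact hv.symm

end Matrix

end Fermat.Agent.TW
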