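/-
P10 / G7 WP-E (helper2): congruences for the tame characters `τ ↦ τ ϖ / ϖ` modulo the maximal
ideal: multiplicativity, independence of the choice of `ϖ` (given `v(ϖ)`), and the action of a
Frobenius element.
-/
import Fermat.Agent.Lib.TW.Flat.SS.Tame
import Fermat.Agent.Lib.TW.Frob

set_option autoImplicit false
set_option linter.style.haveILetI false

namespace Fermat.Agent.TW

open Fermat.Agent.S05Lib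

local notation "Qb" => AlgebraicClosure ℚ
local notation "GQ" => (AlgebraicClosure ℚ ≃ₐ[ℚ] AlgebraicClosure ℚ)

namespace FFPlace

variable (𝔓 : FFPlace)

/-- a Frobenius element acts on residues through `x ↦ x ^ p` -/
lemma gt_frob_sub {F : GQ} (hF : 𝔓.P.IsFrobeniusAt F 𝔓.p) {x : Qb} (hx : 𝔓.v.Ge x 0) :
    𝔓.v.Gt (F x - x ^ 𝔓.p) 0 := by
  have h1 := ((isFrobeniusAt_iff 𝔓.P F 𝔓.p).mp hF).2 x ((𝔓.mem_P_iff x).mpr hx)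
  by_cases h0 : F x - x ^ 𝔓.p = 0
  · exact Or.inl h0
  · right
    rw [← map_one 𝔓.P.valuation,
      qv_lt_iff 𝔓.P 𝔓.hp 𝔓.hP qv_isAlgebraic_int_qbar h0 one_ne_zero,
      qvOrd_one 𝔓.P 𝔓.hp 𝔓.hP] at h1
    exact h1

lemma frob_mem_D {F : GQ} (hF : 𝔓.P.IsFrobeniusAt F 𝔓.p) : F ∈ 𝔓.D :=
  hF.mem_decompositionSubgroup

variable {𝔓}

/-- the quotient `σ ϖ / ϖ` is a unit for `σ` in the decomposition group -/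
lemma is_theta {σ : GQ} (hσ : σ ∈ 𝔓.D) {ϖ : Qb} {s : ℚ} (hϖ : 𝔓.v.Is ϖ s) :
    𝔓.v.Is (σ ϖ / ϖ) 0 := by
  have := (𝔓.is_D hσ hϖ).div hϖ
  rwa [sub_self] at this

/-- multiplicativity of the tame character modulo the maximal ideal -/
lemma gt_theta_mul {σ τ : GQ} (hσ : σ ∈ 𝔓.I) (hτ : τ ∈ 𝔓.D) {ϖ : Qb} {s : ℚ}
    (hϖ : 𝔓.v.Is ϖ s) :
    𝔓.v.Gt ((σ * τ) ϖ / ϖ - (σ ϖ / ϖ) * (τ ϖ / ϖ)) 0 := by
  have hϖ0 := hϖ.1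
  have hu := is_theta hτ hϖ
  have h1 := 𝔓.gt_I_sub hσ hu.ge
  have h2 : (σ * τ) ϖ / ϖ - (σ ϖ / ϖ) * (τ ϖ / ϖ) = (σ (τ ϖ / ϖ) - τ ϖ / ϖ) * (σ ϖ / ϖ) := by
    rw [AlgEquiv.mul_apply, map_div₀]
    have hσϖ : σ ϖ ≠ 0 := (map_ne_zero_iff σ σ.injective).mpr hϖ0
    field_simp
  rw [h2]
  have := h1.mul_ge (is_theta (𝔓.I_le_D hσ) hϖ).ge
  rwa [add_zero] at this

/-- powers -/
lemma gt_theta_pow {τ : GQ} (hτ : τ ∈ 𝔓.I) {ϖ : Qb} {s : ℚ} (hϖ : 𝔓.v.Is ϖ s) (n : ℕ) :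
    𝔓.v.Gt ((τ ^ n) ϖ / ϖ - (τ ϖ / ϖ) ^ n) 0 := by
  induction n with
  | zero =>
    left
    rw [pow_zero, pow_zero, AlgEquiv.one_apply, div_self hϖ.1, sub_self]
  | succ n ih =>
    have h1 := gt_theta_mul hτ (𝔓.I_le_D (𝔓.I.pow_mem hτ n)) hϖ
    have h2 := (is_theta (𝔓.I_le_D hτ) hϖ).ge.mul_gt ih
    rw [add_zero] at h2
    have h3 := h1.add h2
    have : (τ ^ (n + 1)) ϖ / ϖ - (τ ϖ / ϖ) ^ (n + 1) =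
        ((τ * τ ^ n) ϖ / ϖ - τ ϖ / ϖ * ((τ ^ n) ϖ / ϖ)) +
          τ ϖ / ϖ * ((τ ^ n) ϖ / ϖ - (τ ϖ / ϖ) ^ n) := by
      rw [pow_succ' τ n]; ring
    rw [this]
    exact h3

/-- the tame character depends only on the valuation of `ϖ` -/
lemma gt_theta_congr {τ : GQ} (hτ : τ ∈ 𝔓.I) {ϖ ϖ' : Qb} {s : ℚ} (hϖ : 𝔓.v.Is ϖ s)
    (hϖ' : 𝔓.v.Is ϖ' s) : 𝔓.v.Gt (τ ϖ' / ϖ' - τ ϖ / ϖ) 0 := by
  have hw : 𝔓.v.Is (ϖ' / ϖ) 0 := by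
    have := hϖ'.div hϖ
    rwa [sub_self] at this
  have h1 := 𝔓.gt_I_sub hτ hw.ge
  have h2 : τ ϖ' / ϖ' - τ ϖ / ϖ = (τ (ϖ' / ϖ) - ϖ' / ϖ) * (τ ϖ / ϖ') := by
    rw [map_div₀]
    have h0 := hϖ.1
    have h0' := hϖ'.1
    have hτϖ : τ ϖ ≠ 0 := (map_ne_zero_iff τ τ.injective).mpr h0
    field_simp
  rw [h2]
  have h3 : 𝔓.v.Is (τ ϖ / ϖ') 0 := by
    have := (𝔓.is_D (𝔓.I_le_D hτ) hϖ).div hϖ'
    rwa [sub_self] at this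
  have := h1.mul_ge h3.ge
  rwa [add_zero] at this

/-- conjugation by a Frobenius element raises the tame character to the `p`-th power:
`θ(τ) ≡ θ(F⁻¹ τ F) ^ p` -/
lemma gt_theta_frob {F : GQ} (hF : 𝔓.P.IsFrobeniusAt F 𝔓.p) {τ : GQ} (hτ : τ ∈ 𝔓.I) {ϖ : Qb}
    {s : ℚ} (hϖ : 𝔓.v.Is ϖ s) :
    𝔓.v.Gt (τ ϖ / ϖ - ((F⁻¹ * τ * F) ϖ / ϖ) ^ 𝔓.p) 0 := by
  have hFD := 𝔓.frob_mem_D hF
  have hτ' : F⁻¹ * τ * F ∈ 𝔓.I := 𝔓.conj_mem_I' hFD hτ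
  set u : Qb := (F⁻¹ * τ * F) ϖ / ϖ with hu
  have huis : 𝔓.v.Is u 0 := is_theta (𝔓.I_le_D hτ') hϖ
  -- `F u = τ (F ϖ) / F ϖ`
  have h1 : F u = τ (F ϖ) / F ϖ := by
    rw [hu, map_div₀]
    congr 1
    rw [← AlgEquiv.mul_apply, ← AlgEquiv.mul_apply]
    congr 1
    group
  have h2 := gt_theta_congr hτ hϖ (𝔓.is_D hFD hϖ)
  have h3 := 𝔓.gt_frob_sub hF huis.ge
  rw [h1] at h3
  have : τ ϖ / ϖ - u ^ 𝔓.p = -(τ (F ϖ) / F ϖ - τ ϖ / ϖ) + (τ (F ϖ) / F ϖ - u ^ 𝔓.p) := by ring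
  rw [this]
  exact h2.neg.add h3

end FFPlace

end Fermat.Agent.TW
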