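/-
P10 / G7 WP-E (helper2): the structure of a flat two-dimensional representation `R` of the
decomposition group without stable line (the supersingular case).

If `k²` carries a `D`-stable, `kˣ`-stable model and no line of `k²` is stable under the
decomposition group, then inertia acts through two characters `φ₁ ≠ φ₂ = φ₁ ^ p` which are
fundamental characters of level two (`LFFund π₀ φ₁`), and every Frobenius element swaps the two
eigenlines.
-/
import Fermat.Agent.Lib.TW.Flat.SS.Bound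
import Fermat.Agent.Lib.TW.Flat.SS.TameCongr
import Fermat.Agent.Lib.TW.Flat.SS.LinAlg
import Fermat.Agent.Lib.TW.Local.DecompStructure
import Fermat.Agent.Lib.TW.Frob
import Fermat.Agent.Lib.Helper6.FrobeniusExists

set_option autoImplicit false
set_option linter.style.haveILetI false
set_option linter.unusedSectionVars false

namespace Fermat.Agent.TW

open Fermat.Agent.S05Lib Polynomial

local notation "Qb" => AlgebraicClosure ℚ
local notation "GQ" => (AlgebraicClosure ℚ ≃ₐ[ℚ] AlgebraicClosure ℚ)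

variable {k : Type} [Field k]

/-- the action of `GQ` on `k²` through a matrix-valued function -/
noncomputable def ssAct (R : GQ → Matrix (Fin 2) (Fin 2) k) : GQ → (Fin 2 → k) →+ (Fin 2 → k) :=
  fun σ => (Matrix.mulVecLin (R σ)).toAddMonoidHom

@[simp] lemma ssAct_apply (R : GQ → Matrix (Fin 2) (Fin 2) k) (σ : GQ) (v : Fin 2 → k) :
    ssAct R σ v = (R σ).mulVec v := rfl

/-- the standing hypotheses on the residual representation in the supersingular case -/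
structure SSHyp (𝔓 : FFPlace) (R : GQ → Matrix (Fin 2) (Fin 2) k) : Prop where
  one : R 1 = 1
  mul : ∀ σ τ, R (σ * τ) = R σ * R τ
  level : ∃ F : IntermediateField ℚ Qb, FiniteDimensional ℚ F ∧ ∀ s ∈ F.fixingSubgroup, R s = 1
  split : ∀ σ, ∃ α β : k, (R σ).charpoly = (X - C α) * (X - C β)
  irr : ¬ ∃ v : Fin 2 → k, v ≠ 0 ∧ ∀ σ ∈ 𝔓.D, ∃ x : k, (R σ).mulVec v = x • v
  char : ((𝔓.p : ℕ) : k) = 0

namespace SSHyp

variable {𝔓 : FFPlace} {R : GQ → Matrix (Fin 2) (Fin 2) k} (H : SSHyp 𝔓 R)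
include H

lemma mul_inv (σ : GQ) : R σ * R σ⁻¹ = 1 := by rw [← H.mul, mul_inv_cancel, H.one]

lemma inv_mul (σ : GQ) : R σ⁻¹ * R σ = 1 := by rw [← H.mul, inv_mul_cancel, H.one]

lemma pow (σ : GQ) (n : ℕ) : R (σ ^ n) = R σ ^ n := by
  induction n with
  | zero => rw [pow_zero, pow_zero, H.one]
  | succ n ih => rw [pow_succ, pow_succ, H.mul, ih]

lemma mulVec_injective (σ : GQ) : Function.Injective (R σ).mulVec := by
  intro v w h
  have := congrArg (R σ⁻¹).mulVec h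
  rwa [Matrix.mulVec_mulVec, Matrix.mulVec_mulVec, H.inv_mul, Matrix.one_mulVec,
    Matrix.one_mulVec] at this

/-- modulo the level, the decomposition group is generated by a Frobenius and inertia -/
lemma exists_frob_pow_mul {F : GQ} (hF : 𝔓.P.IsFrobeniusAt F 𝔓.p) {σ : GQ} (hσ : σ ∈ 𝔓.D) :
    ∃ n : ℕ, ∃ ι ∈ 𝔓.I, R σ = R F ^ n * R ι := by
  obtain ⟨L, hLfd, hL⟩ := H.level
  haveI : Algebra.IsAlgebraic ℚ Qb := AlgebraicClosure.isAlgebraic ℚ
  haveI : IsAlgClosure ℚ Qb := ⟨inferInstance, inferInstance⟩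
  haveI : Normal ℚ Qb := IsAlgClosure.normal ℚ Qb
  set L' : IntermediateField ℚ Qb := IntermediateField.normalClosure ℚ ↥L Qb with hL'
  have hfd' : FiniteDimensional ℚ ↥L' := normalClosure.is_finiteDimensional ℚ _ Qb
  have hnorm : Normal ℚ ↥L' := normalClosure.normal ℚ _ Qb
  have hnorm' : @Normal ℚ ↥L' _ _ L'.algebra' := by
    convert hnorm using 1
    exact Subsingleton.elim _ _
  have hle : L ≤ L' := IntermediateField.le_normalClosure _
  obtain ⟨n, ι, hι, hn⟩ := tw_decomp_eq_frob_pow_mul_inertia L' hfd' hnorm' 𝔓.hp 𝔓.hP hF hσ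
  refine ⟨n, ι, hι, ?_⟩
  have hs : (F ^ n * ι)⁻¹ * σ ∈ L.fixingSubgroup := by
    rw [IntermediateField.mem_fixingSubgroup_iff]
    intro x hx
    change (F ^ n * ι)⁻¹ (σ x) = x
    rw [hn x (hle hx)]
    change (F ^ n * ι).symm ((F ^ n * ι) x) = x
    exact (F ^ n * ι).symm_apply_apply x
  have h1 := hL _ hs
  have h2 : σ = (F ^ n * ι) * ((F ^ n * ι)⁻¹ * σ) := by group
  rw [h2, H.mul, h1, mul_one, H.mul, H.pow]

/-- a line stable under a Frobenius and under inertia is stable under the decomposition group -/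
lemma not_stable {F : GQ} (hF : 𝔓.P.IsFrobeniusAt F 𝔓.p) {v : Fin 2 → k} (hv : v ≠ 0)
    (h1 : ∃ x : k, (R F).mulVec v = x • v)
    (h2 : ∀ ι ∈ 𝔓.I, ∃ y : k, (R ι).mulVec v = y • v) : False := by
  apply H.irr
  refine ⟨v, hv, fun σ hσ => ?_⟩
  obtain ⟨n, ι, hι, hn⟩ := H.exists_frob_pow_mul hF hσ
  obtain ⟨x, hx⟩ := h1
  obtain ⟨y, hy⟩ := h2 ι hι
  have hpow : ∀ m : ℕ, (R F ^ m).mulVec v = x ^ m • v := by
    intro m
    induction m with
    | zero => simp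
    | succ m ih =>
      rw [pow_succ, ← Matrix.mulVec_mulVec, hx, Matrix.mulVec_smul, ih, smul_smul, pow_succ,
        mul_comm]
  refine ⟨y * x ^ n, ?_⟩
  rw [hn, ← Matrix.mulVec_mulVec, hy, Matrix.mulVec_smul, hpow, smul_smul]

end SSHyp

/-! ### Stable subspaces and uniform orders -/

section Model

variable {𝔓 : FFPlace} {R : GQ → Matrix (Fin 2) (Fin 2) k}

/-- a subspace stable under inertia -/
def SSStable (𝔓 : FFPlace) (R : GQ → Matrix (Fin 2) (Fin 2) k) (L : Submodule k (Fin 2 → k)) :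
    Prop :=
  ∀ τ ∈ 𝔓.I, ∀ x ∈ L, (R τ).mulVec x ∈ L

lemma SSStable.toAddSubgroup {L : Submodule k (Fin 2 → k)} (hL : SSStable 𝔓 R L) :
    ∀ σ ∈ 𝔓.I, ∀ x ∈ L.toAddSubgroup, ssAct R σ x ∈ L.toAddSubgroup :=
  fun σ hσ x hx => hL σ hσ x hx

/-- minimal non-zero stable subspaces exist -/
lemma ss_exists_minimal [Finite k] :
    ∃ L : Submodule k (Fin 2 → k), L ≠ ⊥ ∧ SSStable 𝔓 R L ∧
      ∀ L' : Submodule k (Fin 2 → k), L' ≤ L → SSStable 𝔓 R L' → L' = ⊥ ∨ L' = L := by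
  classical
  haveI : Finite (Submodule k (Fin 2 → k)) :=
    Finite.of_injective (fun S : Submodule k (Fin 2 → k) => (S : Set (Fin 2 → k)))
      SetLike.coe_injective
  let P : Set (Submodule k (Fin 2 → k)) := {S | S ≠ ⊥ ∧ SSStable 𝔓 R S}
  have hne : P.Nonempty := ⟨⊤, top_ne_bot, fun _ _ _ _ => trivial⟩
  obtain ⟨S, hSP, hmin⟩ := wellFounded_lt.has_min P hne
  refine ⟨S, hSP.1, hSP.2, fun S' hS'le hS's => ?_⟩
  by_cases h0 : S' = ⊥
  · exact Or.inl h0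
  · right
    by_contra hne'
    exact hmin S' ⟨h0, hS's⟩ (lt_of_le_of_ne hS'le hne')

variable [Finite k] (M : FFModel 𝔓 (Fin 2 → k) (ssAct R))

/-- uniform order on a subspace, in terms of the ambient model -/
structure SSUniform (L : Submodule k (Fin 2 → k)) (s : ℚ) : Prop where
  pos : 0 < s
  ord : ∀ y ∈ L, y ≠ 0 → M.OrdGE y s ∧ ∃ f ∈ M.aug, 𝔓.v.Is (f y) s
  rel : ∀ {ϖ : Qb}, 𝔓.v.Is ϖ s → ∀ (t : Finset GQ) (n : GQ → ℤ), (∀ σ ∈ t, σ ∈ 𝔓.I) →
    𝔓.v.Gt (∑ σ ∈ t, (n σ : Qb) * (σ ϖ / ϖ)) 0 → ∀ y ∈ L, ∑ σ ∈ t, n σ • (R σ).mulVec y = 0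
  rel' : ∀ {ϖ : Qb}, 𝔓.v.Is ϖ s → ∀ (t : Finset GQ) (n : GQ → ℤ), (∀ σ ∈ t, σ ∈ 𝔓.I) →
    ∀ y ∈ L, y ≠ 0 → ∑ σ ∈ t, n σ • (R σ).mulVec y = 0 →
      𝔓.v.Gt (∑ σ ∈ t, (n σ : Qb) * (σ ϖ / ϖ)) 0

/-- a minimal stable subspace which is not étale has a uniform order -/
theorem ss_exists_uniform
    (hk : ∀ u : kˣ, ∀ f ∈ M.carrier, (fun x => f ((u : k) • x)) ∈ M.carrier)
    {L : Submodule k (Fin 2 → k)} (hLs : SSStable 𝔓 R L)
    (hLmin : ∀ L' : Submodule k (Fin 2 → k), L' ≤ L → SSStable 𝔓 R L' → L' = ⊥ ∨ L' = L)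
    {y₀ : Fin 2 → k} (hy₀L : y₀ ∈ L) (hy₀ : y₀ ≠ 0) (hgt : M.OrdGT y₀ 0) :
    ∃ s : ℚ, SSUniform M L s := by
  classical
  set S : AddSubgroup (Fin 2 → k) := L.toAddSubgroup with hS
  have hSs := hLs.toAddSubgroup
  set N := M.sub S hSs with hN
  -- the scalar endomorphisms of `S`
  let sc : kˣ → (↥S →+ ↥S) := fun u =>
    { toFun := fun x => ⟨(u : k) • (x : Fin 2 → k), L.smul_mem _ x.2⟩
      map_zero' := by apply Subtype.ext; simp
      map_add' := fun x y => by apply Subtype.ext; simp [smul_add] }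
  set Φ : Set (↥S →+ ↥S) := Set.range sc with hΦdef
  have hΦ : ∀ φ ∈ Φ, ∀ f ∈ N.carrier, (fun x => f (φ x)) ∈ N.carrier := by
    rintro _ ⟨u, rfl⟩ f hf
    obtain ⟨g, hg, rfl⟩ := hf
    exact ⟨fun x => g ((u : k) • x), hk u g hg, rfl⟩
  have hsimple : ∀ A : AddSubgroup ↥S, (∀ σ ∈ 𝔓.I, ∀ x ∈ A, FFModel.subAct S hSs σ x ∈ A) →
      (∀ φ ∈ Φ, ∀ x ∈ A, φ x ∈ A) → A = ⊥ ∨ A = ⊤ := by
    intro A hAI hAΦ
    let L' : Submodule k (Fin 2 → k) :=
      { carrier := {v | ∃ x ∈ A, (x : Fin 2 → k) = v}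
        add_mem' := by
          rintro _ _ ⟨x, hx, rfl⟩ ⟨y, hy, rfl⟩
          exact ⟨x + y, A.add_mem hx hy, rfl⟩
        zero_mem' := ⟨0, A.zero_mem, rfl⟩
        smul_mem' := by
          rintro c _ ⟨x, hx, rfl⟩
          by_cases hc : c = 0
          · exact ⟨0, A.zero_mem, by simp [hc]⟩
          · exact ⟨sc (Units.mk0 c hc) x, hAΦ _ ⟨_, rfl⟩ x hx, rfl⟩ }
    have hL'le : L' ≤ L := by
      rintro _ ⟨x, -, rfl⟩
      exact x.2
    have hL's : SSStable 𝔓 R L' := by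
      rintro τ hτ _ ⟨x, hx, rfl⟩
      exact ⟨FFModel.subAct S hSs τ x, hAI τ hτ x hx, FFModel.subAct_apply S hSs hτ x⟩
    rcases hLmin L' hL'le hL's with h | h
    · left
      rw [AddSubgroup.eq_bot_iff_forall]
      intro x hx
      have : (x : Fin 2 → k) ∈ L' := ⟨x, hx, rfl⟩
      rw [h, Submodule.mem_bot] at this
      exact Subtype.ext this
    · right
      rw [AddSubgroup.eq_top_iff']
      intro x
      have : (x : Fin 2 → k) ∈ L' := by rw [h]; exact x.2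
      obtain ⟨x', hx', hxx'⟩ := this
      have : x' = x := Subtype.ext hxx'
      rwa [← this]
  set y : ↥S := ⟨y₀, hy₀L⟩ with hy
  have hy0 : y ≠ 0 := fun h => hy₀ (congrArg Subtype.val h)
  have hygt : N.OrdGT y 0 := (M.ordGT_sub_iff S hSs y 0).mpr hgt
  obtain ⟨s, hs, hu⟩ := FFModel.exists_uniformOrd (M := N) Φ hΦ hsimple hy0 hygt
  refine ⟨s, hs, ?_, ?_, ?_⟩
  · intro v hvL hv0
    obtain ⟨hge, f, hf, hfv⟩ := hu ⟨v, hvL⟩ (fun h => hv0 (congrArg Subtype.val h))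
    refine ⟨(M.ordGE_sub_iff S hSs ⟨v, hvL⟩ s).mp hge, ?_⟩
    obtain ⟨⟨g, hg, rfl⟩, hf0⟩ := hf
    exact ⟨g, ⟨hg, hf0⟩, hfv⟩
  · intro ϖ hϖ t n ht hrel v hvL
    have h1 := hu.sum_act_eq_zero hs hϖ t (fun σ => σ) ht n hrel ⟨v, hvL⟩
    have h2 := congrArg (Subtype.val : ↥S → (Fin 2 → k)) h1
    rw [AddSubgroup.val_finsetSum] at h2
    rw [ZeroMemClass.coe_zero] at h2
    rw [← h2]
    refine Finset.sum_congr rfl (fun σ hσ => ?_)
    rw [AddSubgroup.coe_zsmul, FFModel.subAct_apply S hSs (ht σ hσ)]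
    rfl
  · intro ϖ hϖ t n ht v hvL hv0 hsum
    refine hu.jet_gt_of_sum_act_eq_zero hs hϖ t (fun σ => σ) ht n
      (y := ⟨v, hvL⟩) (fun h => hv0 (congrArg Subtype.val h)) ?_
    apply Subtype.ext
    rw [AddSubgroup.val_finsetSum, ZeroMemClass.coe_zero, ← hsum]
    refine Finset.sum_congr rfl (fun σ hσ => ?_)
    rw [AddSubgroup.coe_zsmul, FFModel.subAct_apply S hSs (ht σ hσ)]
    rfl

end Model

/-! ### The structure theorem -/

section Main

variable {𝔓 : FFPlace} {R : GQ → Matrix (Fin 2) (Fin 2) k} [Finite k]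

lemma ss_finrank : Module.finrank k (Fin 2 → k) = 2 := by simp

/-- a non-zero stable subspace contains a non-zero connected point -/
theorem ss_exists_connected (H : SSHyp 𝔓 R) (M : FFModel 𝔓 (Fin 2 → k) (ssAct R))
    {F : GQ} (hF : 𝔓.P.IsFrobeniusAt F 𝔓.p)
    {L : Submodule k (Fin 2 → k)} (hL0 : L ≠ ⊥) (hLs : SSStable 𝔓 R L) :
    ∃ y ∈ L, y ≠ 0 ∧ M.OrdGT y 0 := by
  by_contra hcon
  push Not at hcon
  -- inertia acts trivially on `L`
  have hfix : ∀ y ∈ L, ∀ τ ∈ 𝔓.I, (R τ).mulVec y = y := by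
    intro y hy τ hτ
    have h1 : M.OrdGT (ssAct R τ y - y) 0 := M.ordGT_act_sub y hτ
    have h2 : ssAct R τ y - y ∈ L := L.sub_mem (hLs τ hτ y hy) hy
    by_contra hne
    exact hcon _ h2 (sub_ne_zero.mpr hne) h1
  -- the subspace of inertia invariants
  let W₀ : Submodule k (Fin 2 → k) :=
    { carrier := {v | ∀ τ ∈ 𝔓.I, (R τ).mulVec v = v}
      add_mem' := fun {a b} ha hb τ hτ => by rw [Matrix.mulVec_add, ha τ hτ, hb τ hτ]
      zero_mem' := fun τ _ => Matrix.mulVec_zero _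
      smul_mem' := fun c v hv τ hτ => by rw [Matrix.mulVec_smul, hv τ hτ] }
  have hW₀ : W₀ ≠ ⊥ := by
    obtain ⟨y, hy, hy0⟩ := Submodule.exists_mem_ne_zero_of_ne_bot hL0
    intro h
    have : y ∈ W₀ := hfix y hy
    rw [h, Submodule.mem_bot] at this
    exact hy0 this
  have hFD := 𝔓.frob_mem_D hF
  have hFW : ∀ v ∈ W₀, (R F).mulVec v ∈ W₀ := by
    intro v hv τ hτ
    have h1 : τ * F = F * (F⁻¹ * τ * F) := by group
    rw [Matrix.mulVec_mulVec, ← H.mul, h1, H.mul, ← Matrix.mulVec_mulVec,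
      hv _ (𝔓.conj_mem_I' hFD hτ)]
  -- an eigenvector of the Frobenius in `W₀`
  obtain ⟨v, hvW, hv0, x, hx⟩ : ∃ v ∈ W₀, v ≠ 0 ∧ ∃ x : k, (R F).mulVec v = x • v := by
    by_cases htop : W₀ = ⊤
    · obtain ⟨α, β, hαβ⟩ := H.split F
      obtain ⟨v, hv0, hv⟩ := ss_exists_eigenvector hαβ
      exact ⟨v, by rw [htop]; trivial, hv0, α, hv⟩
    · obtain ⟨e, heW, he0, he⟩ := ss_line_of_proper ss_finrank W₀ hW₀ htop
      obtain ⟨c, hc⟩ := he _ (hFW e heW)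
      exact ⟨e, heW, he0, c, hc⟩
  exact H.not_stable hF hv0 ⟨x, hx⟩ (fun ι hι => ⟨1, by rw [one_smul]; exact hvW ι hι⟩)

namespace SSUniform

variable {M : FFModel 𝔓 (Fin 2 → k) (ssAct R)} {L : Submodule k (Fin 2 → k)} {s : ℚ}

/-- an element of valuation `s` -/
lemma exists_is (hu : SSUniform M L s) (hL0 : L ≠ ⊥) : ∃ ϖ : Qb, 𝔓.v.Is ϖ s := by
  obtain ⟨y, hy, hy0⟩ := Submodule.exists_mem_ne_zero_of_ne_bot hL0
  obtain ⟨-, f, -, hf⟩ := hu.ord y hy hy0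
  exact ⟨f y, hf⟩

/-- two elements of inertia with congruent tame characters act in the same way -/
lemma eq_of_gt (hu : SSUniform M L s) {ϖ : Qb} (hϖ : 𝔓.v.Is ϖ s) {a b : GQ} (ha : a ∈ 𝔓.I)
    (hb : b ∈ 𝔓.I) (h : 𝔓.v.Gt (a ϖ / ϖ - b ϖ / ϖ) 0) {y : Fin 2 → k} (hy : y ∈ L) :
    (R a).mulVec y = (R b).mulVec y := by
  classical
  by_cases hab : a = b
  · rw [hab]
  have h1 := hu.rel hϖ {a, b} (fun σ => if σ = a then 1 else -1)
    (by
      intro σ hσ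
      rcases Finset.mem_insert.mp hσ with rfl | hσ
      · exact ha
      · rw [Finset.mem_singleton] at hσ; rw [hσ]; exact hb)
    (by
      rw [Finset.sum_pair hab]
      simp only [if_true, if_neg (Ne.symm hab), Int.cast_one, one_mul, Int.cast_neg, neg_mul]
      rwa [← sub_eq_add_neg])
    y hy
  rw [Finset.sum_pair hab] at h1
  simp only [if_true, if_neg (Ne.symm hab), one_smul, neg_smul] at h1
  rwa [← sub_eq_add_neg, sub_eq_zero] at h1

/-- conversely -/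
lemma gt_of_eq (hu : SSUniform M L s) {ϖ : Qb} (hϖ : 𝔓.v.Is ϖ s) {a b : GQ} (ha : a ∈ 𝔓.I)
    (hb : b ∈ 𝔓.I) {y : Fin 2 → k} (hy : y ∈ L) (hy0 : y ≠ 0)
    (h : (R a).mulVec y = (R b).mulVec y) : 𝔓.v.Gt (a ϖ / ϖ - b ϖ / ϖ) 0 := by
  classical
  by_cases hab : a = b
  · left; rw [hab, sub_self]
  have h1 := hu.rel' hϖ {a, b} (fun σ => if σ = a then 1 else -1)
    (by
      intro σ hσ
      rcases Finset.mem_insert.mp hσ with rfl | hσ
      · exact ha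
      · rw [Finset.mem_singleton] at hσ; rw [hσ]; exact hb)
    y hy hy0
    (by
      rw [Finset.sum_pair hab]
      simp only [if_true, if_neg (Ne.symm hab), one_smul, neg_smul]
      rw [← sub_eq_add_neg, sub_eq_zero]
      exact h)
  rw [Finset.sum_pair hab] at h1
  simp only [if_true, if_neg (Ne.symm hab), Int.cast_one, one_mul, Int.cast_neg, neg_mul] at h1
  rwa [← sub_eq_add_neg] at h1

/-- inertia acts commutatively -/
lemma comm (hu : SSUniform M L s) (hL0 : L ≠ ⊥) {a b : GQ} (ha : a ∈ 𝔓.I)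
    (hb : b ∈ 𝔓.I) {y : Fin 2 → k} (hy : y ∈ L) :
    (R (a * b)).mulVec y = (R (b * a)).mulVec y := by
  obtain ⟨ϖ, hϖ⟩ := hu.exists_is hL0
  refine hu.eq_of_gt hϖ (𝔓.I.mul_mem ha hb) (𝔓.I.mul_mem hb ha) ?_ hy
  have h1 := FFPlace.gt_theta_mul ha (𝔓.I_le_D hb) hϖ
  have h2 := FFPlace.gt_theta_mul hb (𝔓.I_le_D ha) hϖ
  have : (a * b) ϖ / ϖ - (b * a) ϖ / ϖ =
      ((a * b) ϖ / ϖ - a ϖ / ϖ * (b ϖ / ϖ)) - ((b * a) ϖ / ϖ - b ϖ / ϖ * (a ϖ / ϖ)) := by ring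
  rw [this]
  exact h1.sub h2

end SSUniform

/-- a minimal stable subspace with a uniform order is a line -/
theorem ss_minimal_ne_top (H : SSHyp 𝔓 R) {M : FFModel 𝔓 (Fin 2 → k) (ssAct R)}
    {L : Submodule k (Fin 2 → k)} {s : ℚ} (hu : SSUniform M L s) (hL0 : L ≠ ⊥)
    (hLmin : ∀ L' : Submodule k (Fin 2 → k), L' ≤ L → SSStable 𝔓 R L' → L' = ⊥ ∨ L' = L) :
    L ≠ ⊤ := by
  intro htop
  let S : Set ((Fin 2 → k) →ₗ[k] (Fin 2 → k)) := {A | ∃ τ ∈ 𝔓.I, A = Matrix.mulVecLin (R τ)}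
  have hcomm : ∀ A ∈ S, ∀ B ∈ S, A ∘ₗ B = B ∘ₗ A := by
    rintro _ ⟨a, ha, rfl⟩ _ ⟨b, hb, rfl⟩
    apply LinearMap.ext
    intro y
    have hy : y ∈ L := by rw [htop]; trivial
    have := hu.comm hL0 ha hb hy
    rw [H.mul, H.mul, ← Matrix.mulVec_mulVec, ← Matrix.mulVec_mulVec] at this
    exact this
  have heig : ∀ A ∈ S, ∃ (α : k) (v : Fin 2 → k), v ≠ 0 ∧ A v = α • v := by
    rintro _ ⟨a, -, rfl⟩
    obtain ⟨α, β, hαβ⟩ := H.split a
    obtain ⟨v, hv0, hv⟩ := ss_exists_eigenvector hαβ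
    exact ⟨α, v, hv0, hv⟩
  obtain ⟨v, hv0, hv⟩ := ss_common_eigenvector ss_finrank S hcomm heig
  have hst : SSStable 𝔓 R (Submodule.span k {v}) := by
    intro τ hτ x hx
    obtain ⟨c, rfl⟩ := Submodule.mem_span_singleton.mp hx
    obtain ⟨x, hx⟩ := hv _ ⟨τ, hτ, rfl⟩
    rw [Matrix.mulVec_smul]
    change c • (Matrix.mulVecLin (R τ)) v ∈ _
    rw [hx, smul_smul]
    exact Submodule.smul_mem _ _ (Submodule.mem_span_singleton_self v)
  rcases hLmin _ (by rw [htop]; exact le_top) hst with h | h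
  · rw [Submodule.span_singleton_eq_bot] at h
    exact hv0 h
  · have h1 : Module.finrank k (Submodule.span k {v}) = 1 := finrank_span_singleton hv0
    rw [h, htop, finrank_top, ss_finrank] at h1
    norm_num at h1

/-- an eigenline of inertia with its character -/
structure SSLine (𝔓 : FFPlace) (R : GQ → Matrix (Fin 2) (Fin 2) k) (e : Fin 2 → k)
    (φ : GQ → k) : Prop where
  ne : e ≠ 0
  eig : ∀ τ ∈ 𝔓.I, (R τ).mulVec e = φ τ • e

namespace SSLine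

variable {e : Fin 2 → k} {φ : GQ → k}

lemma one (hl : SSLine 𝔓 R e φ) (H : SSHyp 𝔓 R) : φ 1 = 1 := by
  have h1 := hl.eig 1 𝔓.I.one_mem
  rw [H.one, Matrix.one_mulVec] at h1
  have h2 : (1 : k) • e = φ 1 • e := by rw [one_smul]; exact h1
  exact (smul_left_injective k hl.ne h2).symm

lemma mul (hl : SSLine 𝔓 R e φ) (H : SSHyp 𝔓 R) {σ τ : GQ} (hσ : σ ∈ 𝔓.I) (hτ : τ ∈ 𝔓.I) :
    φ (σ * τ) = φ σ * φ τ := by
  have h1 := hl.eig _ (𝔓.I.mul_mem hσ hτ)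
  rw [H.mul, ← Matrix.mulVec_mulVec, hl.eig τ hτ, Matrix.mulVec_smul, hl.eig σ hσ, smul_smul] at h1
  have := smul_left_injective k hl.ne h1
  rw [← this, mul_comm]

lemma pow (hl : SSLine 𝔓 R e φ) (H : SSHyp 𝔓 R) {τ : GQ} (hτ : τ ∈ 𝔓.I) (n : ℕ) :
    φ (τ ^ n) = φ τ ^ n := by
  induction n with
  | zero => rw [pow_zero, pow_zero, hl.one H]
  | succ n ih => rw [pow_succ, pow_succ, hl.mul H (𝔓.I.pow_mem hτ n) hτ, ih]

lemma ne_zero (hl : SSLine 𝔓 R e φ) (H : SSHyp 𝔓 R) {τ : GQ} (hτ : τ ∈ 𝔓.I) : φ τ ≠ 0 := by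
  intro h0
  have h1 := hl.eig τ hτ
  rw [h0, zero_smul] at h1
  have h2 : (R τ).mulVec e = (R τ).mulVec 0 := by rw [h1, Matrix.mulVec_zero]
  exact hl.ne (H.mulVec_injective τ h2)

/-- the conjugate line -/
lemma conj (hl : SSLine 𝔓 R e φ) (H : SSHyp 𝔓 R) {g : GQ} (hg : g ∈ 𝔓.D) :
    SSLine 𝔓 R ((R g).mulVec e) (fun τ => φ (g⁻¹ * τ * g)) := by
  refine ⟨fun h0 => hl.ne (H.mulVec_injective g (by rw [h0, Matrix.mulVec_zero])), fun τ hτ => ?_⟩
  have h1 : τ * g = g * (g⁻¹ * τ * g) := by group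
  rw [Matrix.mulVec_mulVec, ← H.mul, h1, H.mul, ← Matrix.mulVec_mulVec,
    hl.eig _ (𝔓.conj_mem_I' hg hτ), Matrix.mulVec_smul]

end SSLine

end Main

end Fermat.Agent.TW
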