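/-
P10 / G7 WP-E (helper2): the structure theorem in the supersingular case, continued.
-/
import Fermat.Agent.Lib.TW.Flat.SS.Struct

set_option autoImplicit false
set_option linter.style.haveILetI false
set_option linter.unusedSectionVars false

namespace Fermat.Agent.TW

open Fermat.Agent.S05Lib Polynomial

local notation "Qb" => AlgebraicClosure ℚ
local notation "GQ" => (AlgebraicClosure ℚ ≃ₐ[ℚ] AlgebraicClosure ℚ)

variable {k : Type} [Field k] [Finite k] {𝔓 : FFPlace} {R : GQ → Matrix (Fin 2) (Fin 2) k}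

/-- existence of an eigenline of inertia with a uniform order -/
theorem ss_exists_line (H : SSHyp 𝔓 R) (M : FFModel 𝔓 (Fin 2 → k) (ssAct R))
    (hk : ∀ u : kˣ, ∀ f ∈ M.carrier, (fun x => f ((u : k) • x)) ∈ M.carrier) :
    ∃ (e : Fin 2 → k) (φ : GQ → k) (L : Submodule k (Fin 2 → k)) (s : ℚ),
      SSLine 𝔓 R e φ ∧ SSUniform M L s ∧ e ∈ L ∧ ∀ w ∈ L, ∃ c : k, w = c • e := by
  classical
  obtain ⟨F, hF⟩ := Fermat.Agent.Lib.Helper6.exists_isFrobeniusAt 𝔓.P 𝔓.hp 𝔓.hP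
  obtain ⟨L, hL0, hLs, hLmin⟩ := ss_exists_minimal (𝔓 := 𝔓) (R := R)
  obtain ⟨y₀, hy₀L, hy₀, hgt⟩ := ss_exists_connected H M hF hL0 hLs
  obtain ⟨s, hu⟩ := ss_exists_uniform M hk hLs hLmin hy₀L hy₀ hgt
  have htop := ss_minimal_ne_top H hu hL0 hLmin
  obtain ⟨e, heL, he0, he⟩ := ss_line_of_proper ss_finrank L hL0 htop
  have hφ : ∀ τ : GQ, ∃ c : k, τ ∈ 𝔓.I → (R τ).mulVec e = c • e := by
    intro τ
    by_cases hτ : τ ∈ 𝔓.I
    · obtain ⟨c, hc⟩ := he _ (hLs τ hτ e heL)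
      exact ⟨c, fun _ => hc⟩
    · exact ⟨0, fun h => absurd h hτ⟩
  choose φ hφ' using hφ
  exact ⟨e, φ, L, s, ⟨he0, fun τ hτ => hφ' τ hτ⟩, hu, heL, he⟩

/-- the eigenlines of inertia when the two characters are different -/
lemma ss_eigenline {e₁ e₂ : Fin 2 → k} {φ₁ φ₂ : GQ → k} (hl₁ : SSLine 𝔓 R e₁ φ₁)
    (hl₂ : SSLine 𝔓 R e₂ φ₂) (hspan : ∀ v : Fin 2 → k, ∃ a b : k, v = a • e₁ + b • e₂)
    (hind : ∀ a b : k, a • e₁ + b • e₂ = 0 → a = 0 ∧ b = 0)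
    {τ₀ : GQ} (hτ₀ : τ₀ ∈ 𝔓.I) (hne : φ₁ τ₀ ≠ φ₂ τ₀) {w : Fin 2 → k} {c : k}
    (hw : (R τ₀).mulVec w = c • w) : (∃ a : k, w = a • e₁) ∨ (∃ b : k, w = b • e₂) := by
  obtain ⟨a, b, rfl⟩ := hspan w
  rw [Matrix.mulVec_add, Matrix.mulVec_smul, Matrix.mulVec_smul, hl₁.eig τ₀ hτ₀, hl₂.eig τ₀ hτ₀,
    smul_add, smul_smul, smul_smul, smul_smul, smul_smul] at hw
  have h0 : (a * φ₁ τ₀ - c * a) • e₁ + (b * φ₂ τ₀ - c * b) • e₂ = 0 := by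
    rw [sub_smul, sub_smul]
    rw [← sub_eq_zero] at hw
    rw [← hw]
    abel
  obtain ⟨h1, h2⟩ := hind _ _ h0
  by_cases ha : a = 0
  · right; exact ⟨b, by rw [ha, zero_smul, zero_add]⟩
  · left
    have hc : c = φ₁ τ₀ := by
      have : a * (φ₁ τ₀ - c) = 0 := by rw [mul_sub]; linear_combination h1
      rcases mul_eq_zero.mp this with h | h
      · exact absurd h ha
      · exact (sub_eq_zero.mp h).symm
    have hb : b = 0 := by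
      have : b * (φ₂ τ₀ - c) = 0 := by rw [mul_sub]; linear_combination h2
      rcases mul_eq_zero.mp this with h | h
      · exact h
      · exact absurd (by rw [← hc]; exact (sub_eq_zero.mp h).symm) hne
    exact ⟨a, by rw [hb, zero_smul, add_zero]⟩

/-- the character of an eigenline and its Frobenius conjugate -/
lemma ss_phi_frob (H : SSHyp 𝔓 R) {M : FFModel 𝔓 (Fin 2 → k) (ssAct R)} {e : Fin 2 → k}
    {φ : GQ → k} (hl : SSLine 𝔓 R e φ) {L : Submodule k (Fin 2 → k)} {s : ℚ}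
    (hu : SSUniform M L s) (heL : e ∈ L) {F : GQ} (hF : 𝔓.P.IsFrobeniusAt F 𝔓.p) {τ : GQ}
    (hτ : τ ∈ 𝔓.I) : φ τ = φ (F⁻¹ * τ * F) ^ 𝔓.p := by
  have hL0 : L ≠ ⊥ := fun h => hl.ne (by rw [h] at heL; exact (Submodule.mem_bot k).mp heL)
  obtain ⟨ϖ, hϖ⟩ := hu.exists_is hL0
  have hτ' : F⁻¹ * τ * F ∈ 𝔓.I := 𝔓.conj_mem_I' (𝔓.frob_mem_D hF) hτ
  have h1 := FFPlace.gt_theta_frob hF hτ hϖ
  have h2 := FFPlace.gt_theta_pow hτ' hϖ 𝔓.p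
  have h3 : 𝔓.v.Gt (τ ϖ / ϖ - ((F⁻¹ * τ * F) ^ 𝔓.p) ϖ / ϖ) 0 := by
    have := h1.sub h2
    have heq : τ ϖ / ϖ - ((F⁻¹ * τ * F) ^ 𝔓.p) ϖ / ϖ =
        (τ ϖ / ϖ - ((F⁻¹ * τ * F) ϖ / ϖ) ^ 𝔓.p) -
          (((F⁻¹ * τ * F) ^ 𝔓.p) ϖ / ϖ - ((F⁻¹ * τ * F) ϖ / ϖ) ^ 𝔓.p) := by ring
    rw [heq]
    exact this
  have h4 := hu.eq_of_gt hϖ hτ (𝔓.I.pow_mem hτ' 𝔓.p) h3 heL
  rw [hl.eig τ hτ, hl.eig _ (𝔓.I.pow_mem hτ' 𝔓.p), hl.pow H hτ'] at h4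
  exact smul_left_injective k hl.ne h4

/-- arithmetic dichotomy -/
lemma ss_arith_dich {p d m : ℤ} (hp : 2 ≤ p) (hd : 0 < d) (hdvd : d ∣ p ^ 2 - 1) (hm : 0 < m)
    (h1 : p ∣ d + m) (h2 : m * (p - 1) ≤ d) :
    m * (p ^ 2 - 1) = d ∨ m * (p ^ 2 - 1) = d * (p + 1) := by
  by_cases h3 : d < m * (p ^ 2 - 1)
  · exact Or.inr (FFModel.ss_arith hp hd hdvd hm h1 h2 h3)
  · left
    push Not at h3
    obtain ⟨c, hc⟩ := hdvd
    have hc0 : 0 < c := by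
      by_contra h
      push Not at h
      have : d * c ≤ 0 := mul_nonpos_of_nonneg_of_nonpos hd.le h
      nlinarith
    have h4 : m * (p ^ 2 - 1) = d * (m * c) := by rw [hc]; ring
    have h5 : 1 ≤ m * c := by nlinarith
    have h6 : d * 1 ≤ d * (m * c) := by nlinarith
    rw [h4] at h3 ⊢
    nlinarith

/-- in characteristic `p` the natural numbers are fixed by Frobenius -/
lemma ss_natCast_pow (p : ℕ) [Fact p.Prime] [CharP k p] (a : ℕ) : ((a : ℕ) : k) ^ p = a := by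
  induction a with
  | zero => simp [(Fact.out : p.Prime).ne_zero]
  | succ a ih => rw [Nat.cast_succ, add_pow_char, ih, one_pow]

/-- **the uniform order of an eigenline of level two is `1/(p² - 1)`** -/
theorem ss_uniform_eq (H : SSHyp 𝔓 R) (hU : 𝔓.Unr) {M : FFModel 𝔓 (Fin 2 → k) (ssAct R)}
    {e : Fin 2 → k} {φ : GQ → k} (hl : SSLine 𝔓 R e φ) {L : Submodule k (Fin 2 → k)} {s : ℚ}
    (hu : SSUniform M L s) (hLs : SSStable 𝔓 R L) (heL : e ∈ L)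
    (he : ∀ w ∈ L, ∃ c : k, w = c • e)
    {ζ : Qb} (hζ : IsPrimitiveRoot ζ 𝔓.p)
    (hpow : ∀ τ ∈ 𝔓.I, φ τ ^ (𝔓.p ^ 2) = φ τ) (hnot : ∃ g ∈ 𝔓.I, φ g ^ 𝔓.p ≠ φ g) :
    s = 1 / ((𝔓.p : ℚ) ^ 2 - 1) := by
  classical
  haveI : Fact 𝔓.p.Prime := ⟨𝔓.hp⟩
  haveI : CharP k 𝔓.p := (CharP.charP_iff_prime_eq_zero 𝔓.hp).2 H.char
  have hp2' : (2 : ℚ) ≤ 𝔓.p := by exact_mod_cast 𝔓.hp.two_le
  have hpp : (0 : ℚ) < (𝔓.p : ℚ) ^ 2 - 1 := by nlinarith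
  set S : AddSubgroup (Fin 2 → k) := L.toAddSubgroup with hS
  have hSs := hLs.toAddSubgroup
  set N := M.sub S hSs with hN
  -- the character as a homomorphism
  let χ : ↥𝔓.I →* kˣ :=
    { toFun := fun τ => Units.mk0 (φ τ) (hl.ne_zero H τ.2)
      map_one' := by apply Units.ext; exact hl.one H
      map_mul' := fun σ τ => by apply Units.ext; exact hl.mul H σ.2 τ.2 }
  have hχ : ∀ τ : ↥𝔓.I, ((χ τ : kˣ) : k) = φ τ := fun τ => rfl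
  haveI : Finite kˣ := Finite.of_injective (fun u : kˣ => (u : k)) Units.val_injective
  haveI : Finite ↥χ.range := inferInstance
  haveI : χ.ker.FiniteIndex := by
    constructor
    rw [Subgroup.index_ker]
    exact Nat.card_pos.ne'
  have hidx : χ.ker.index ∣ 𝔓.p ^ 2 - 1 := by
    rw [Subgroup.index_ker]
    haveI : IsCyclic ↥χ.range := isCyclic_subgroup_units _
    rw [← IsCyclic.exponent_eq_card]
    apply Monoid.exponent_dvd_of_forall_pow_eq_one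
    rintro ⟨_, τ, rfl⟩
    apply Subtype.ext
    apply Units.ext
    simp only [SubmonoidClass.coe_pow, Units.val_pow_eq_pow_val, hχ, OneMemClass.coe_one,
      Units.val_one]
    have h1 := hpow τ τ.2
    have h0 := hl.ne_zero H τ.2
    have h2 : 𝔓.p ^ 2 = (𝔓.p ^ 2 - 1) + 1 := by
      have := 𝔓.ss_sq_sub_one_pos; omega
    rw [h2, pow_succ] at h1
    exact mul_right_cancel₀ h0 (by rw [h1, one_mul])
  have hH : ∀ σ ∈ χ.ker, ∀ x : ↥S, FFModel.subAct S hSs (σ : GQ) x = x := by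
    intro σ hσ x
    apply Subtype.ext
    rw [FFModel.subAct_apply S hSs σ.2]
    obtain ⟨c, hc⟩ := he x x.2
    have h1 : φ σ = 1 := by
      have := (MonoidHom.mem_ker).mp hσ
      have h2 := congrArg (fun u : kˣ => (u : k)) this
      simpa [hχ] using h2
    rw [ssAct_apply, hc, Matrix.mulVec_smul, hl.eig σ σ.2, h1, one_smul]
  set y : ↥S := ⟨e, heL⟩ with hy
  have hpy : 𝔓.p • y = 0 := by
    apply Subtype.ext
    rw [AddSubgroup.coe_nsmul, ZeroMemClass.coe_zero]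
    rw [← Nat.cast_smul_eq_nsmul k, H.char, zero_smul]
  obtain ⟨hge, g, hg, hgy⟩ := hu.ord e heL hl.ne
  have hge' : N.OrdGE y s := (M.ordGE_sub_iff S hSs y s).mpr hge
  have hf : (g ∘ S.subtype) ∈ N.aug := ⟨⟨g, hg.1, rfl⟩, by simpa using hg.2⟩
  obtain ⟨m, hm0, hsm, hdvd, hle⟩ :=
    FFModel.char_arith (M := N) hU χ.ker hH hpy hu.pos hge' hf hgy
  set d : ℕ := χ.ker.index with hd
  have hd0 : 0 < d := Nat.pos_of_ne_zero Subgroup.FiniteIndex.index_ne_zero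
  have hddvd : (d : ℤ) ∣ (𝔓.p : ℤ) ^ 2 - 1 := by
    have h2 : ((𝔓.p ^ 2 - 1 : ℕ) : ℤ) = (𝔓.p : ℤ) ^ 2 - 1 := by
      have : 1 ≤ 𝔓.p ^ 2 := Nat.one_le_pow _ _ 𝔓.hp.pos
      push_cast [Nat.cast_sub this]
      ring
    rw [← h2]
    exact_mod_cast hidx
  have hdq : (0 : ℚ) < d := by exact_mod_cast hd0
  have hs_eq : s = m / d := by rw [← hsm]; field_simp
  rcases ss_arith_dich (p := (𝔓.p : ℤ)) (by exact_mod_cast 𝔓.hp.two_le)
    (by exact_mod_cast hd0) hddvd hm0 hdvd hle with h | h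
  · have h4 : (m : ℚ) * ((𝔓.p : ℚ) ^ 2 - 1) = d := by exact_mod_cast h
    rw [hs_eq, div_eq_div_iff hdq.ne' hpp.ne']
    linarith
  · exfalso
    have h4 : (m : ℚ) * ((𝔓.p : ℚ) ^ 2 - 1) = d * ((𝔓.p : ℚ) + 1) := by exact_mod_cast h
    have hs1 : s = 1 / ((𝔓.p : ℚ) - 1) := by
      rw [hs_eq, div_eq_div_iff hdq.ne' (by linarith)]
      have : ((𝔓.p : ℚ) ^ 2 - 1) = ((𝔓.p : ℚ) - 1) * ((𝔓.p : ℚ) + 1) := by ring
      rw [this] at h4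
      have hp1 : ((𝔓.p : ℚ) + 1) ≠ 0 := by linarith
      apply mul_right_cancel₀ hp1
      linarith
    have hϖ : 𝔓.v.Is (ζ - 1) s := by
      rw [hs1]
      exact 𝔓.lf_is_zeta_sub_one hζ
    obtain ⟨g₀, hg₀, hg₀ne⟩ := hnot
    apply hg₀ne
    -- `φ g₀` is a natural number
    obtain ⟨a, -, ha⟩ := hζ.eq_pow_of_pow_eq_one (ξ := g₀ ζ)
      (by rw [← map_pow, hζ.pow_eq_one, map_one])
    have hjet := 𝔓.lf_gt_apply_zeta_sub_one hζ ha.symm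
    by_cases hg1 : g₀ = 1
    · rw [hg1, hl.one H, one_pow]
    have h5 := hu.rel hϖ {g₀, 1} (fun σ => if σ = g₀ then 1 else -(a : ℤ))
      (by
        intro σ hσ
        rcases Finset.mem_insert.mp hσ with rfl | hσ
        · exact hg₀
        · rw [Finset.mem_singleton] at hσ; rw [hσ]; exact 𝔓.I.one_mem)
      (by
        rw [Finset.sum_pair hg1]
        simp only [if_true, if_neg (Ne.symm hg1), Int.cast_one, one_mul, Int.cast_neg,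
          Int.cast_natCast, AlgEquiv.one_apply]
        rw [div_self hϖ.1, mul_one, ← sub_eq_add_neg]
        exact hjet)
      e heL
    rw [Finset.sum_pair hg1] at h5
    simp only [if_true, if_neg (Ne.symm hg1), one_smul, neg_smul, natCast_zsmul] at h5
    rw [H.one, Matrix.one_mulVec, hl.eig g₀ hg₀, ← sub_eq_add_neg, sub_eq_zero,
      ← Nat.cast_smul_eq_nsmul k] at h5
    have h6 : φ g₀ = (a : k) := smul_left_injective k hl.ne h5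
    rw [h6]
    exact ss_natCast_pow 𝔓.p a

/-- **The structure theorem (supersingular case).** -/
theorem ss_structure (H : SSHyp 𝔓 R) (hU : 𝔓.Unr) (M : FFModel 𝔓 (Fin 2 → k) (ssAct R))
    (hk : ∀ u : kˣ, ∀ f ∈ M.carrier, (fun x => f ((u : k) • x)) ∈ M.carrier)
    {π₀ ζ : Qb} (hπ₀ : π₀ ^ (𝔓.p ^ 2 - 1) = -(𝔓.p : Qb)) (hζ : IsPrimitiveRoot ζ 𝔓.p) :
    ∃ (e₁ e₂ : Fin 2 → k) (φ₁ φ₂ : GQ → k),
      SSLine 𝔓 R e₁ φ₁ ∧ SSLine 𝔓 R e₂ φ₂ ∧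
      (∀ a b : k, a • e₁ + b • e₂ = 0 → a = 0 ∧ b = 0) ∧
      (∀ v : Fin 2 → k, ∃ a b : k, v = a • e₁ + b • e₂) ∧
      𝔓.LFFund π₀ φ₁ ∧ (∀ τ ∈ 𝔓.I, φ₂ τ = φ₁ τ ^ 𝔓.p) ∧ (∀ τ ∈ 𝔓.I, φ₁ τ = φ₂ τ ^ 𝔓.p) ∧
      (∃ τ₀ ∈ 𝔓.I, φ₁ τ₀ ≠ φ₂ τ₀) ∧
      ∀ F : GQ, 𝔓.P.IsFrobeniusAt F 𝔓.p →
        ∃ α β : k, (R F).mulVec e₁ = α • e₂ ∧ (R F).mulVec e₂ = β • e₁ := by
  classical
  obtain ⟨F, hF⟩ := Fermat.Agent.Lib.Helper6.exists_isFrobeniusAt 𝔓.P 𝔓.hp 𝔓.hP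
  have hFD := 𝔓.frob_mem_D hF
  obtain ⟨e₁, φ₁, L, s, hl₁, hu, he₁L, heL⟩ := ss_exists_line H M hk
  have hL0 : L ≠ ⊥ := fun h => hl₁.ne (by rw [h] at he₁L; exact (Submodule.mem_bot k).mp he₁L)
  have hLs : SSStable 𝔓 R L := by
    intro τ hτ x hx
    obtain ⟨c, rfl⟩ := heL x hx
    rw [Matrix.mulVec_smul, hl₁.eig τ hτ, smul_smul]
    exact L.smul_mem _ he₁L
  -- the second line
  set e₂ : Fin 2 → k := (R F).mulVec e₁ with he₂
  set φ₂ : GQ → k := fun τ => φ₁ (F⁻¹ * τ * F) with hφ₂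
  have hl₂ : SSLine 𝔓 R e₂ φ₂ := hl₁.conj H hFD
  have hind : ∀ a b : k, a • e₁ + b • e₂ = 0 → a = 0 ∧ b = 0 := by
    intro a b hab
    have hb : b = 0 := by
      by_contra hb
      have h1 : (R F).mulVec e₁ = (-(a / b)) • e₁ := by
        have h2 : b • e₂ = -(a • e₁) := eq_neg_of_add_eq_zero_right hab
        have h3 : e₂ = b⁻¹ • (b • e₂) := by rw [smul_smul, inv_mul_cancel₀ hb, one_smul]
        rw [← he₂, h3, h2, smul_neg, smul_smul, neg_smul]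
        congr 2
        field_simp
      exact H.not_stable hF hl₁.ne ⟨_, h1⟩ (fun ι hι => ⟨_, hl₁.eig ι hι⟩)
    refine ⟨?_, hb⟩
    rw [hb, zero_smul, add_zero] at hab
    rcases smul_eq_zero.mp hab with h | h
    · exact h
    · exact absurd h hl₁.ne
  have hli : LinearIndependent k ![e₁, e₂] := LinearIndependent.pair_iff.mpr hind
  have hspan : ∀ v : Fin 2 → k, ∃ a b : k, v = a • e₁ + b • e₂ := by
    intro v
    let bs := basisOfLinearIndependentOfCardEqFinrank hli (by simp)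
    refine ⟨bs.repr v 0, bs.repr v 1, ?_⟩
    have h1 := bs.sum_repr v
    rw [Fin.sum_univ_two] at h1
    simp only [bs, coe_basisOfLinearIndependentOfCardEqFinrank, Matrix.cons_val_zero,
      Matrix.cons_val_one] at h1
    exact h1.symm
  -- the two characters are different
  have hne : ∃ τ₀ ∈ 𝔓.I, φ₁ τ₀ ≠ φ₂ τ₀ := by
    by_contra hcon
    push Not at hcon
    obtain ⟨α, β, hαβ⟩ := H.split F
    obtain ⟨v, hv0, hv⟩ := ss_exists_eigenvector hαβ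
    refine H.not_stable hF hv0 ⟨α, hv⟩ (fun ι hι => ⟨φ₁ ι, ?_⟩)
    obtain ⟨a, b, rfl⟩ := hspan v
    rw [Matrix.mulVec_add, Matrix.mulVec_smul, Matrix.mulVec_smul, hl₁.eig ι hι, hl₂.eig ι hι,
      ← hcon ι hι, smul_add, smul_smul, smul_smul, smul_smul, smul_smul, mul_comm a,
      mul_comm b]
  obtain ⟨τ₀, hτ₀, hτ₀ne⟩ := hne
  -- every Frobenius swaps the lines
  have hswap : ∀ F' : GQ, 𝔓.P.IsFrobeniusAt F' 𝔓.p →
      ∃ α β : k, (R F').mulVec e₁ = α • e₂ ∧ (R F').mulVec e₂ = β • e₁ := by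
    intro F' hF'
    have hF'D := 𝔓.frob_mem_D hF'
    have hc₁ := hl₁.conj H hF'D
    have hc₂ := hl₂.conj H hF'D
    have h1 : ∃ α : k, (R F').mulVec e₁ = α • e₂ := by
      rcases ss_eigenline hl₁ hl₂ hspan hind hτ₀ hτ₀ne (hc₁.eig τ₀ hτ₀) with ⟨a, ha⟩ | h
      · exact absurd (H.not_stable hF' hl₁.ne ⟨a, ha⟩ (fun ι hι => ⟨_, hl₁.eig ι hι⟩)) id
      · exact h
    obtain ⟨α, hα⟩ := h1
    rcases ss_eigenline hl₁ hl₂ hspan hind hτ₀ hτ₀ne (hc₂.eig τ₀ hτ₀) with h | ⟨c, hc⟩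
    · obtain ⟨β, hβ⟩ := h
      exact ⟨α, β, hα, hβ⟩
    · exfalso
      have h2 : (R F').mulVec (c • e₁ - α • e₂) = (R F').mulVec 0 := by
        rw [Matrix.mulVec_sub, Matrix.mulVec_smul, Matrix.mulVec_smul, hα, hc, smul_smul,
          smul_smul, mul_comm, sub_self, Matrix.mulVec_zero]
      have h3 := H.mulVec_injective F' h2
      have h4 : c • e₁ + (-α) • e₂ = 0 := by rw [neg_smul, ← sub_eq_add_neg]; exact h3
      obtain ⟨-, h5⟩ := hind _ _ h4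
      have hα0 : α = 0 := neg_eq_zero.mp h5
      rw [hα0, zero_smul] at hα
      exact hc₁.ne hα
  -- the relations between the characters
  have hrel₁ : ∀ τ ∈ 𝔓.I, φ₁ τ = φ₂ τ ^ 𝔓.p := fun τ hτ => ss_phi_frob H hl₁ hu he₁L hF hτ
  obtain ⟨α, β, hα, hβ⟩ := hswap F hF
  have hβ0 : β ≠ 0 := by
    rintro rfl
    rw [zero_smul] at hβ
    exact (hl₂.conj H hFD).ne hβ
  have hconj₂ : ∀ τ ∈ 𝔓.I, φ₂ (F⁻¹ * τ * F) = φ₁ τ := by
    intro τ hτ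
    have hτ' : F⁻¹ * τ * F ∈ 𝔓.I := 𝔓.conj_mem_I' hFD hτ
    have h1 := (hl₂.conj H hFD).eig τ hτ
    rw [hβ, Matrix.mulVec_smul, hl₁.eig τ hτ, smul_smul, smul_smul] at h1
    have h2 := smul_left_injective k hl₁.ne h1
    have h3 : β * φ₁ τ = φ₂ (F⁻¹ * τ * F) * β := h2
    rw [mul_comm] at h3
    exact (mul_right_cancel₀ hβ0 h3).symm
  have hrel₂ : ∀ τ ∈ 𝔓.I, φ₂ τ = φ₁ τ ^ 𝔓.p := by
    intro τ hτ
    have hτ' : F⁻¹ * τ * F ∈ 𝔓.I := 𝔓.conj_mem_I' hFD hτ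
    have h1 := hrel₁ _ hτ'
    rw [hconj₂ τ hτ] at h1
    exact h1
  have hpow : ∀ τ ∈ 𝔓.I, φ₁ τ ^ (𝔓.p ^ 2) = φ₁ τ := by
    intro τ hτ
    rw [pow_two, pow_mul, ← hrel₂ τ hτ, ← hrel₁ τ hτ]
  have hnot : ∃ g ∈ 𝔓.I, φ₁ g ^ 𝔓.p ≠ φ₁ g := by
    refine ⟨τ₀, hτ₀, ?_⟩
    rw [← hrel₂ τ₀ hτ₀]
    exact fun h => hτ₀ne h.symm
  have hs := ss_uniform_eq H hU hl₁ hu hLs he₁L heL hζ hpow hnot
  -- the fundamental character
  have hπis : 𝔓.v.Is π₀ s := by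
    have h0 := FFPlace.ss_pi_ne_zero hπ₀
    refine ⟨h0, ?_⟩
    have h1 : 𝔓.v.Is (π₀ ^ (𝔓.p ^ 2 - 1)) 1 := by
      rw [hπ₀]; exact 𝔓.is_p.neg
    have h2 := ((QVal.is_ord h0).pow (𝔓.p ^ 2 - 1)).unique h1
    rw [hs]
    have h3 : ((𝔓.p ^ 2 - 1 : ℕ) : ℚ) = (𝔓.p : ℚ) ^ 2 - 1 := by
      have : 1 ≤ 𝔓.p ^ 2 := Nat.one_le_pow _ _ 𝔓.hp.pos
      push_cast [Nat.cast_sub this]
      ring
    rw [h3] at h2
    have hp2' : (2 : ℚ) ≤ 𝔓.p := by exact_mod_cast 𝔓.hp.two_le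
    have hpp : (0 : ℚ) < (𝔓.p : ℚ) ^ 2 - 1 := by nlinarith
    field_simp
    linarith
  have hfund : 𝔓.LFFund π₀ φ₁ := by
    refine ⟨fun σ hσ τ hτ => hl₁.mul H hσ hτ, fun t n ht => ?_⟩
    have hsum : ∑ σ ∈ t, n σ • (R σ).mulVec e₁ = (∑ σ ∈ t, (n σ : k) * φ₁ σ) • e₁ := by
      rw [Finset.sum_smul]
      refine Finset.sum_congr rfl (fun σ hσ => ?_)
      rw [hl₁.eig σ (ht σ hσ), ← Int.cast_smul_eq_zsmul k, smul_smul]
    constructor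
    · intro h0
      refine hu.rel' hπis t n ht e₁ he₁L hl₁.ne ?_
      rw [hsum, h0, zero_smul]
    · intro hgt
      have h1 := hu.rel hπis t n ht hgt e₁ he₁L
      rw [hsum] at h1
      rcases smul_eq_zero.mp h1 with h | h
      · exact h
      · exact absurd h hl₁.ne
  exact ⟨e₁, e₂, φ₁, φ₂, hl₁, hl₂, hind, hspan, hfund, hrel₂, hrel₁, ⟨τ₀, hτ₀, hτ₀ne⟩, hswap⟩

end Fermat.Agent.TW
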