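/-
P10 / G7 WP-E (helper2): the model side of (E-eps) and (E-top), abstract form.

`r : G_ℚ → GL₂(k[ε])` is a lift whose reduction is diagonal on the inertia group `I`, with diagonal
characters trivial on the stabiliser of `π₀` and not `𝔽_p`-valued (`SSLift`), and `M` is a
function model of the points `k[ε]²`.

* `SSLift.eps`: if all integral elements fixed by `{σ ∈ I | σ π₀ = π₀, r σ i i = 1}` are moved by
  at least `c > 1/(p²-1)` by the elements of the stabiliser of `π₀` then `r τ i i = 1` on that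
  stabiliser (subquotient `k[ε]`, `x ↦ r_ii x`, of the points).
* `SSLift.top`: the same for the off-diagonal entry `r_{i+1,i}` modulo an additive subgroup `Z` of
  `k` (subquotient `k × k ⧸ Z`).
-/
import Fermat.Agent.Lib.TW.Flat.SS.Core
import Fermat.Agent.Lib.TW.Flat.SS.Struct2
import Fermat.Agent.Lib.TW.Flat.Dictionary

set_option autoImplicit false
set_option linter.style.haveILetI false

namespace Fermat.Agent.TW

open Fermat.Agent.S05Lib

local notation "Qb" => AlgebraicClosure ℚ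
local notation "GQ" => (AlgebraicClosure ℚ ≃ₐ[ℚ] AlgebraicClosure ℚ)

noncomputable section

variable {k : Type} [Field k]

lemma ss_sum_fin_two {α : Type*} [AddCommMonoid α] (i : Fin 2) (f : Fin 2 → α) :
    ∑ l, f l = f i + f (i + 1) := by
  fin_cases i
  · simp [Fin.sum_univ_two]
  · simp [Fin.sum_univ_two, add_comm]

lemma ss_fin_two_ne (i : Fin 2) : i + 1 ≠ i := by
  fin_cases i <;> simp

lemma ss_fin_two_add (i : Fin 2) : i + 1 + 1 = i := by
  fin_cases i <;> simp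

lemma ss_dual_mul_eq_zero {x y : DualNumber k} (hx : x.fst = 0) (hy : y.fst = 0) : x * y = 0 := by
  apply TrivSqZeroExt.ext
  · simp [hx]
  · simp [hx, hy]

lemma ss_dual_mul_fst_one {x y : DualNumber k} (hx : x.fst = 1) (hy : y.fst = 0) : x * y = y := by
  apply TrivSqZeroExt.ext
  · simp [hx, hy]
  · simp [hx, hy]

lemma ss_dual_natCast_smul (n : ℕ) (hn : (n : k) = 0) (x : DualNumber k) : n • x = 0 := by
  apply TrivSqZeroExt.ext
  · simp [hn]
  · simp [hn]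

/-- the hypotheses on a lift `r` to the dual numbers of a representation which is diagonal on the
inertia group, with diagonal characters trivial on the stabiliser of `π₀` and not `𝔽_p`-valued -/
structure SSLift (𝔓 : FFPlace) (π₀ : Qb) (r : GQ →* Matrix (Fin 2) (Fin 2) (DualNumber k)) :
    Prop where
  char : ((𝔓.p : ℕ) : k) = 0
  diag : ∀ σ ∈ 𝔓.I, ∀ i j, i ≠ j → (r σ i j).fst = 0
  fix : ∀ σ ∈ 𝔓.I, σ π₀ = π₀ → ∀ i, (r σ i i).fst = 1
  nonrat : ∀ i, ∃ g ∈ 𝔓.I, (r g i i).fst ^ 𝔓.p ≠ (r g i i).fst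

namespace SSLift

variable {𝔓 : FFPlace} {π₀ : Qb} {r : GQ →* Matrix (Fin 2) (Fin 2) (DualNumber k)}

/-- the subgroup of the points whose `(i+1)`-st coordinate vanishes modulo `ε` -/
def subY (i : Fin 2) : AddSubgroup (DualPts k) where
  carrier := {x | (x (i + 1)).fst = 0}
  zero_mem' := by simp
  add_mem' := by
    intro x y hx hy
    simp only [Set.mem_ofPred_eq] at hx hy ⊢
    rw [Pi.add_apply, TrivSqZeroExt.fst_add, hx, hy, add_zero]
  neg_mem' := by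
    intro x hx
    simp only [Set.mem_ofPred_eq] at hx ⊢
    rw [Pi.neg_apply, TrivSqZeroExt.fst_neg, hx, neg_zero]

lemma mem_subY (i : Fin 2) (x : DualPts k) : x ∈ subY (k := k) i ↔ (x (i + 1)).fst = 0 := Iff.rfl

lemma mulVec_apply' (A : Matrix (Fin 2) (Fin 2) (DualNumber k)) (x : DualPts k) (i l : Fin 2) :
    (A.mulVec x) l = A l i * x i + A l (i + 1) * x (i + 1) := by
  rw [Matrix.mulVec, dotProduct, ss_sum_fin_two i]

lemma subY_stable (H : SSLift 𝔓 π₀ r) (i : Fin 2) :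
    ∀ σ ∈ 𝔓.I, ∀ x ∈ subY (k := k) i, dualAct r σ x ∈ subY (k := k) i := by
  intro σ hσ x hx
  rw [mem_subY] at hx ⊢
  rw [dualAct_apply, mulVec_apply' _ _ i]
  rw [TrivSqZeroExt.fst_add, TrivSqZeroExt.fst_mul, TrivSqZeroExt.fst_mul, hx,
    H.diag σ hσ (i + 1) i (ss_fin_two_ne i)]
  simp

/-- the projection of `subY i` onto the `i`-th coordinate -/
def projA (i : Fin 2) : ↥(subY (k := k) i) →+ DualNumber k :=
  (Pi.evalAddMonoidHom (fun _ : Fin 2 => DualNumber k) i).comp (subY (k := k) i).subtype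

@[simp] lemma projA_apply (i : Fin 2) (x : ↥(subY (k := k) i)) : projA i x = x.1 i := rfl

lemma projA_surjective (i : Fin 2) : Function.Surjective (projA (k := k) i) := by
  intro a
  refine ⟨⟨Pi.single i a, ?_⟩, ?_⟩
  · rw [mem_subY, Pi.single_eq_of_ne (ss_fin_two_ne i)]
    rfl
  · simp

/-- the action on the `i`-th coordinate: multiplication by the diagonal entry -/
def actA (r : GQ →* Matrix (Fin 2) (Fin 2) (DualNumber k)) (i : Fin 2) (σ : GQ) :
    DualNumber k →+ DualNumber k :=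
  AddMonoidHom.mulLeft (r σ i i)

@[simp] lemma actA_apply (i : Fin 2) (σ : GQ) (x : DualNumber k) :
    actA r i σ x = r σ i i * x := rfl

lemma projA_act (H : SSLift 𝔓 π₀ r) (i : Fin 2) :
    ∀ σ ∈ 𝔓.I, ∀ x : ↥(subY (k := k) i),
      projA i (FFModel.subAct (subY (k := k) i) (H.subY_stable i) σ x) =
        actA r i σ (projA i x) := by
  intro σ hσ x
  rw [projA_apply, FFModel.subAct_apply _ _ hσ, dualAct_apply, mulVec_apply' _ _ i, actA_apply,
    projA_apply]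
  have hx := x.2
  rw [mem_subY] at hx
  rw [ss_dual_mul_eq_zero (H.diag σ hσ i (i + 1) (ss_fin_two_ne i).symm) hx, add_zero]

/-- **(E-eps)**, abstract form -/
theorem eps [Finite k] (H : SSLift 𝔓 π₀ r) (hU : 𝔓.Unr) (M : FFModel 𝔓 (DualPts k) (dualAct r))
    {ζ : Qb} (hπ₀ : π₀ ^ (𝔓.p ^ 2 - 1) = -(𝔓.p : Qb)) (hζ : IsPrimitiveRoot ζ 𝔓.p)
    (i : Fin 2) {c : ℚ} (hc : 1 / ((𝔓.p : ℚ) ^ 2 - 1) < c)
    (hKS : ∀ τ ∈ 𝔓.I, τ π₀ = π₀ → ∀ z : Qb, 𝔓.v.Ge z 0 →
      (∀ σ ∈ 𝔓.I, σ π₀ = π₀ → r σ i i = 1 → σ z = z) → 𝔓.v.Ge (τ z - z) c) :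
    ∀ τ ∈ 𝔓.I, τ π₀ = π₀ → r τ i i = 1 := by
  intro τ hτ hτπ
  haveI : Fact 𝔓.p.Prime := ⟨𝔓.hp⟩
  haveI : CharP k 𝔓.p := (CharP.charP_iff_prime_eq_zero 𝔓.hp).2 H.char
  set N : FFModel 𝔓 (DualNumber k) (actA r i) :=
    (M.sub (subY i) (H.subY_stable i)).quot hU (projA i) (projA_surjective i) (H.projA_act i)
    with hN
  let S : AddSubgroup (DualNumber k) :=
    { carrier := {x | x.fst = 0}
      zero_mem' := by simp
      add_mem' := by
        intro x y hx hy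
        simp only [Set.mem_ofPred_eq] at hx hy ⊢
        rw [TrivSqZeroExt.fst_add, hx, hy, add_zero]
      neg_mem' := by
        intro x hx
        simp only [Set.mem_ofPred_eq] at hx ⊢
        rw [TrivSqZeroExt.fst_neg, hx, neg_zero] }
  have hmemS : ∀ x : DualNumber k, x ∈ S ↔ x.fst = 0 := fun x => Iff.rfl
  have key : actA r i τ 1 = 1 := by
    refine FFModel.ss_core N hU hπ₀ hζ S ?_ ?_ ?_ ?_ hτ hc ?_ ?_
    · intro σ _ x hx
      rw [hmemS] at hx ⊢
      rw [actA_apply, TrivSqZeroExt.fst_mul, hx, mul_zero]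
    · intro x _
      exact ss_dual_natCast_smul _ H.char x
    · intro σ hσ hσπ x hx
      rw [actA_apply]
      exact ss_dual_mul_fst_one (H.fix σ hσ hσπ i) ((hmemS x).1 hx)
    · intro x hx hall
      obtain ⟨g, hg, hgne⟩ := H.nonrat i
      have hgζ : (g ζ) ^ 𝔓.p = 1 := by rw [← map_pow, hζ.pow_eq_one, map_one]
      obtain ⟨a, -, ha⟩ := hζ.eq_pow_of_pow_eq_one hgζ
      have h1 := hall g hg a ha.symm
      rw [actA_apply] at h1
      have h2 := congrArg TrivSqZeroExt.snd h1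
      rw [TrivSqZeroExt.snd_mul, TrivSqZeroExt.snd_smul, (hmemS x).1 hx] at h2
      simp only [smul_eq_mul, MulOpposite.op_zero, zero_smul, add_zero, nsmul_eq_mul] at h2
      have h3 : ((r g i i).fst - (a : k)) * x.snd = 0 := by rw [sub_mul, h2, sub_self]
      rcases mul_eq_zero.1 h3 with h4 | h4
      · exfalso
        apply hgne
        rw [sub_eq_zero.1 h4, ss_natCast_pow]
      · exact TrivSqZeroExt.ext ((hmemS x).1 hx) h4
    · intro f hf
      refine hKS τ hτ hτπ (f 1) (N.ge_zero hf 1) fun σ hσ _ hσr => ?_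
      rw [← N.equivariant f hf σ hσ 1, actA_apply, hσr, mul_one]
    · rw [hmemS, actA_apply, mul_one, TrivSqZeroExt.fst_sub, H.fix τ hτ hτπ i]
      simp
  rwa [actA_apply, mul_one] at key


/-! ## (E-top) -/

open Classical in
/-- the multiplier on the quotient `k ⧸ Z` -/
def topMul (𝔓 : FFPlace) (r : GQ →* Matrix (Fin 2) (Fin 2) (DualNumber k)) (i : Fin 2) (σ : GQ) :
    k :=
  if σ ∈ 𝔓.I then (r σ (i + 1) (i + 1)).fst else 1

lemma topMul_of_mem (i : Fin 2) {σ : GQ} (hσ : σ ∈ 𝔓.I) :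
    topMul 𝔓 r i σ = (r σ (i + 1) (i + 1)).fst := by
  unfold topMul
  rw [if_pos hσ]

lemma topMul_stable (i : Fin 2) (Z : AddSubgroup k)
    (hZ : ∀ σ ∈ 𝔓.I, ∀ b ∈ Z, (r σ (i + 1) (i + 1)).fst * b ∈ Z) (σ : GQ) :
    Z ≤ Z.comap (AddMonoidHom.mulLeft (topMul 𝔓 r i σ)) := by
  intro b hb
  rw [AddSubgroup.mem_comap, AddMonoidHom.coe_mulLeft]
  unfold topMul
  split_ifs with h
  · exact hZ σ h b hb
  · rwa [one_mul]

/-- the action on `k × k ⧸ Z` -/
def actT (𝔓 : FFPlace) (r : GQ →* Matrix (Fin 2) (Fin 2) (DualNumber k)) (i : Fin 2)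
    (Z : AddSubgroup k) (hZ : ∀ σ ∈ 𝔓.I, ∀ b ∈ Z, (r σ (i + 1) (i + 1)).fst * b ∈ Z) (σ : GQ) :
    k × (k ⧸ Z) →+ k × (k ⧸ Z) :=
  AddMonoidHom.prod ((AddMonoidHom.mulLeft (r σ i i).fst).comp (AddMonoidHom.fst k (k ⧸ Z)))
    ((QuotientAddGroup.map Z Z (AddMonoidHom.mulLeft (topMul 𝔓 r i σ))
        (topMul_stable i Z hZ σ)).comp (AddMonoidHom.snd k (k ⧸ Z)) +
      (QuotientAddGroup.mk' Z).comp
        ((AddMonoidHom.mulLeft (r σ (i + 1) i).snd).comp (AddMonoidHom.fst k (k ⧸ Z))))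

lemma actT_mk (i : Fin 2) (Z : AddSubgroup k)
    (hZ : ∀ σ ∈ 𝔓.I, ∀ b ∈ Z, (r σ (i + 1) (i + 1)).fst * b ∈ Z) {σ : GQ} (hσ : σ ∈ 𝔓.I)
    (a b : k) :
    actT 𝔓 r i Z hZ σ (a, (QuotientAddGroup.mk' Z b)) =
      ((r σ i i).fst * a,
        QuotientAddGroup.mk' Z ((r σ (i + 1) (i + 1)).fst * b + (r σ (i + 1) i).snd * a)) := by
  unfold actT
  rw [AddMonoidHom.prod_apply]
  refine Prod.ext rfl ?_
  simp only [AddMonoidHom.add_apply, AddMonoidHom.comp_apply, AddMonoidHom.coe_snd,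
    AddMonoidHom.coe_fst, QuotientAddGroup.mk'_apply, QuotientAddGroup.map_mk,
    AddMonoidHom.coe_mulLeft, topMul_of_mem i hσ]
  rfl

/-- the projection of `subY i` onto `k × k ⧸ Z` -/
def projT (i : Fin 2) (Z : AddSubgroup k) : ↥(subY (k := k) i) →+ k × (k ⧸ Z) where
  toFun x := ((x.1 i).fst, QuotientAddGroup.mk' Z (x.1 (i + 1)).snd)
  map_zero' := by simp
  map_add' x y := by
    refine Prod.ext ?_ ?_
    · simp
    · simp

lemma projT_apply (i : Fin 2) (Z : AddSubgroup k) (x : ↥(subY (k := k) i)) :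
    projT i Z x = ((x.1 i).fst, QuotientAddGroup.mk' Z (x.1 (i + 1)).snd) := rfl

lemma projT_surjective (i : Fin 2) (Z : AddSubgroup k) : Function.Surjective (projT (k := k) i Z) := by
  rintro ⟨a, v⟩
  obtain ⟨b, rfl⟩ := QuotientAddGroup.mk'_surjective Z v
  refine ⟨⟨Pi.single i (TrivSqZeroExt.inl a) + Pi.single (i + 1) (TrivSqZeroExt.inr b), ?_⟩, ?_⟩
  · rw [mem_subY, Pi.add_apply, Pi.single_eq_of_ne (ss_fin_two_ne i), Pi.single_eq_same]
    simp
  · rw [projT_apply]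
    simp only [Pi.add_apply, Pi.single_eq_same, Pi.single_eq_of_ne (ss_fin_two_ne i),
      Pi.single_eq_of_ne (ss_fin_two_ne i).symm]
    simp

lemma projT_act (H : SSLift 𝔓 π₀ r) (i : Fin 2) (Z : AddSubgroup k)
    (hZ : ∀ σ ∈ 𝔓.I, ∀ b ∈ Z, (r σ (i + 1) (i + 1)).fst * b ∈ Z) :
    ∀ σ ∈ 𝔓.I, ∀ x : ↥(subY (k := k) i),
      projT i Z (FFModel.subAct (subY (k := k) i) (H.subY_stable i) σ x) =
        actT 𝔓 r i Z hZ σ (projT i Z x) := by
  intro σ hσ x
  have hx := x.2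
  rw [mem_subY] at hx
  rw [projT_apply, projT_apply, actT_mk i Z hZ hσ, FFModel.subAct_apply _ _ hσ, dualAct_apply,
    mulVec_apply' _ _ i, mulVec_apply' _ _ i]
  refine Prod.ext ?_ ?_
  · show (r σ i i * x.1 i + r σ i (i + 1) * x.1 (i + 1)).fst = (r σ i i).fst * (x.1 i).fst
    rw [ss_dual_mul_eq_zero (H.diag σ hσ i (i + 1) (ss_fin_two_ne i).symm) hx, add_zero,
      TrivSqZeroExt.fst_mul]
  · show QuotientAddGroup.mk' Z
        (r σ (i + 1) i * x.1 i + r σ (i + 1) (i + 1) * x.1 (i + 1)).snd = _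
    congr 1
    rw [TrivSqZeroExt.snd_add, TrivSqZeroExt.snd_mul, TrivSqZeroExt.snd_mul, hx,
      H.diag σ hσ (i + 1) i (ss_fin_two_ne i)]
    simp only [smul_eq_mul, MulOpposite.op_zero, zero_smul, add_zero, zero_mul, zero_add,
      MulOpposite.smul_eq_mul_unop, MulOpposite.unop_op]
    ring

/-- **(E-top)**, abstract form -/
theorem top [Finite k] (H : SSLift 𝔓 π₀ r) (hU : 𝔓.Unr) (M : FFModel 𝔓 (DualPts k) (dualAct r))
    {ζ : Qb} (hπ₀ : π₀ ^ (𝔓.p ^ 2 - 1) = -(𝔓.p : Qb)) (hζ : IsPrimitiveRoot ζ 𝔓.p)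
    (i : Fin 2) (Z : AddSubgroup k)
    (hZ : ∀ σ ∈ 𝔓.I, ∀ b ∈ Z, (r σ (i + 1) (i + 1)).fst * b ∈ Z)
    (hZω : ∃ g ∈ 𝔓.I, ∀ (a : ℕ) (b : k), ((r g (i + 1) (i + 1)).fst - (a : k)) * b ∈ Z → b ∈ Z)
    {c : ℚ} (hc : 1 / ((𝔓.p : ℚ) ^ 2 - 1) < c) {τ : GQ} (hτ : τ ∈ 𝔓.I) (hτπ : τ π₀ = π₀)
    (hmove : ∀ z : Qb, 𝔓.v.Ge z 0 →
      (∀ σ ∈ 𝔓.I, σ π₀ = π₀ → (r σ (i + 1) i).snd ∈ Z → σ z = z) → 𝔓.v.Ge (τ z - z) c) :
    (r τ (i + 1) i).snd ∈ Z := by
  haveI : Fact 𝔓.p.Prime := ⟨𝔓.hp⟩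
  haveI : CharP k 𝔓.p := (CharP.charP_iff_prime_eq_zero 𝔓.hp).2 H.char
  haveI : Finite (k ⧸ Z) :=
    Finite.of_surjective (QuotientAddGroup.mk' Z) (QuotientAddGroup.mk'_surjective Z)
  set N : FFModel 𝔓 (k × (k ⧸ Z)) (actT 𝔓 r i Z hZ) :=
    (M.sub (subY i) (H.subY_stable i)).quot hU (projT i Z) (projT_surjective i Z)
      (H.projT_act i Z hZ) with hN
  let S : AddSubgroup (k × (k ⧸ Z)) :=
    { carrier := {x | x.1 = 0}
      zero_mem' := by simp
      add_mem' := by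
        intro x y hx hy
        simp only [Set.mem_ofPred_eq] at hx hy ⊢
        rw [Prod.fst_add, hx, hy, add_zero]
      neg_mem' := by
        intro x hx
        simp only [Set.mem_ofPred_eq] at hx ⊢
        rw [Prod.fst_neg, hx, neg_zero] }
  have hmemS : ∀ x : k × (k ⧸ Z), x ∈ S ↔ x.1 = 0 := fun x => Iff.rfl
  have hmk0 : (QuotientAddGroup.mk' Z (0 : k)) = 0 := map_zero _
  have hact1 : ∀ σ ∈ 𝔓.I, actT 𝔓 r i Z hZ σ (1, 0) =
      ((r σ i i).fst, QuotientAddGroup.mk' Z (r σ (i + 1) i).snd) := by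
    intro σ hσ
    rw [← hmk0, actT_mk i Z hZ hσ, mul_one, mul_zero, zero_add, mul_one]
  have key : actT 𝔓 r i Z hZ τ (1, 0) = (1, 0) := by
    refine FFModel.ss_core N hU hπ₀ hζ S ?_ ?_ ?_ ?_ hτ hc ?_ ?_
    · rintro σ hσ ⟨a, v⟩ hx
      obtain ⟨b, rfl⟩ := QuotientAddGroup.mk'_surjective Z v
      rw [hmemS] at hx ⊢
      simp only at hx
      rw [actT_mk i Z hZ hσ, hx, mul_zero]
    · rintro ⟨a, v⟩ hx
      obtain ⟨b, rfl⟩ := QuotientAddGroup.mk'_surjective Z v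
      rw [hmemS] at hx
      simp only at hx
      refine Prod.ext ?_ ?_
      · simp [hx]
      · show 𝔓.p • (QuotientAddGroup.mk' Z b) = 0
        rw [← map_nsmul, nsmul_eq_mul, H.char, zero_mul, map_zero]
    · rintro σ hσ hσπ ⟨a, v⟩ hx
      obtain ⟨b, rfl⟩ := QuotientAddGroup.mk'_surjective Z v
      rw [hmemS] at hx
      simp only at hx
      rw [actT_mk i Z hZ hσ, hx, mul_zero, mul_zero, add_zero, H.fix σ hσ hσπ (i + 1), one_mul]
    · rintro ⟨a, v⟩ hx hall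
      obtain ⟨b, rfl⟩ := QuotientAddGroup.mk'_surjective Z v
      rw [hmemS] at hx
      simp only at hx
      obtain ⟨g, hg, hgZ⟩ := hZω
      have hgζ : (g ζ) ^ 𝔓.p = 1 := by rw [← map_pow, hζ.pow_eq_one, map_one]
      obtain ⟨n, -, hn⟩ := hζ.eq_pow_of_pow_eq_one hgζ
      have h1 := hall g hg n hn.symm
      rw [actT_mk i Z hZ hg, hx, mul_zero, mul_zero, add_zero] at h1
      have h2 := congrArg Prod.snd h1
      simp only [Prod.smul_snd] at h2
      rw [← map_nsmul, nsmul_eq_mul] at h2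
      have h3 : ((r g (i + 1) (i + 1)).fst - (n : k)) * b ∈ Z := by
        rw [sub_mul]
        exact (QuotientAddGroup.eq_iff_sub_mem).1 h2.symm |> fun h => by
          have := Z.neg_mem h
          rwa [neg_sub] at this
      have hb := hgZ n b h3
      refine Prod.ext hx ?_
      show QuotientAddGroup.mk' Z b = 0
      exact (QuotientAddGroup.eq_zero_iff b).2 hb
    · intro f hf
      refine hmove (f (1, 0)) (N.ge_zero hf _) fun σ hσ hσπ hσZ => ?_
      rw [← N.equivariant f hf σ hσ (1, 0), hact1 σ hσ, H.fix σ hσ hσπ i]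
      congr 2
      exact (QuotientAddGroup.eq_zero_iff _).2 hσZ
    · rw [hmemS, hact1 τ hτ, H.fix τ hτ hτπ i]
      simp
  rw [hact1 τ hτ] at key
  have h2 := congrArg Prod.snd key
  exact (QuotientAddGroup.eq_zero_iff _).1 h2

end SSLift

end

end Fermat.Agent.TW
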