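/-
P10 / G7 WP-E (helper2): supersingular frames.

`SSFrame 𝔓 ρbar π₀ bs φ`: `bs` is an eigenbasis of `ρbar` restricted to the inertia group, with
eigencharacters `φ 0`, `φ 1 = (φ 0) ^ p` which are fundamental characters of level two
(`LFFund π₀`), and every Frobenius element swaps the two eigenlines.

* `ss_hyp_rbar`, `ss_exists_model_rbar`: the input of the structure theorem `ss_structure` for
  `rbarMat ρbar b` from a scalar-stable model of a lift to `k[ε]`;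
* `ss_exists_frame`: existence of a frame from one flat lift (`hirr`: no `D`-stable line);
* `SSFrame.phi_fix`, `SSFrame.rho_fix`, `SSFrame.rbarMat_apply`, `SSFrame.fund_all`;
* `SSFrame.toSSLift`: a dual lift in the eigenbasis satisfies `SSLift`.
-/
import Fermat.Agent.Lib.TW.Flat.SS.Lift
import Fermat.Agent.Lib.TW.Tangent

set_option autoImplicit false
set_option linter.style.haveILetI false

namespace Fermat.Agent.TW

open Fermat.Agent.S05Lib Fermat.Agent.S53Lib Polynomial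

local notation "Qb" => AlgebraicClosure ℚ
local notation "GQ" => (AlgebraicClosure ℚ ≃ₐ[ℚ] AlgebraicClosure ℚ)

noncomputable section

variable {k : Type} [Field k]

/-- `rbarMat` computes `ρbar` in coordinates -/
lemma rbarMat_mulVec_equivFun (ρbar : ResidualGaloisRep k) (b : Module.Basis (Fin 2) k ρbar.V)
    (σ : GQ) (x : ρbar.V) :
    (rbarMat ρbar b σ).mulVec (b.equivFun x) = b.equivFun (ρbar.ρ σ x) := by
  unfold rbarMat
  exact LinearMap.toMatrix_mulVec_repr b b (ρbar.ρ σ) x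

lemma rho_equivFun_symm (ρbar : ResidualGaloisRep k) (b : Module.Basis (Fin 2) k ρbar.V)
    (σ : GQ) (v : Fin 2 → k) :
    ρbar.ρ σ (b.equivFun.symm v) = b.equivFun.symm ((rbarMat ρbar b σ).mulVec v) := by
  apply b.equivFun.injective
  rw [← rbarMat_mulVec_equivFun, LinearEquiv.apply_symm_apply, LinearEquiv.apply_symm_apply]

/-- the hypotheses of the structure theorem for `rbarMat` -/
theorem ss_hyp_rbar (𝔓 : FFPlace) (ρbar : ResidualGaloisRep k) (b : Module.Basis (Fin 2) k ρbar.V)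
    (hpk : ((𝔓.p : ℕ) : k) = 0)
    (hsplit : ∀ σ : GQ, ∃ α β : k, LinearMap.charpoly (ρbar.ρ σ) = (X - C α) * (X - C β))
    (hirr : ¬ ∃ v₀ : ρbar.V, v₀ ≠ 0 ∧ ∀ σ ∈ 𝔓.D, ∃ x : k, ρbar.ρ σ v₀ = x • v₀) :
    SSHyp 𝔓 (rbarMat ρbar b) where
  one := rbarMat_one ρbar b
  mul := rbarMat_mul ρbar b
  level := by
    obtain ⟨L, hL, hLρ⟩ := ρbar.factorsThroughFiniteLevel
    refine ⟨L, hL, fun s hs => ?_⟩
    have h1 : ρbar.ρ s = 1 := hLρ s fun x hx => (IntermediateField.mem_fixingSubgroup_iff _ _).1 hs x hx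
    unfold rbarMat
    rw [h1, Module.End.one_eq_id, LinearMap.toMatrix_id]
  split := by
    intro σ
    obtain ⟨α, β, h⟩ := hsplit σ
    refine ⟨α, β, ?_⟩
    unfold rbarMat
    rw [LinearMap.charpoly_toMatrix, h]
  irr := by
    rintro ⟨v, hv, hD⟩
    apply hirr
    refine ⟨b.equivFun.symm v, ?_, fun σ hσ => ?_⟩
    · intro h0
      apply hv
      have := congrArg b.equivFun h0
      rwa [LinearEquiv.apply_symm_apply, map_zero] at this
    · obtain ⟨x, hx⟩ := hD σ hσ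
      refine ⟨x, ?_⟩
      rw [rho_equivFun_symm, hx, map_smul]
  char := hpk

/-- the embedding `v ↦ ε v` of `k²` into the points `k[ε]²` -/
def ssEps : (Fin 2 → k) →+ DualPts k where
  toFun v i := TrivSqZeroExt.inr (v i)
  map_zero' := by ext i <;> simp
  map_add' x y := by ext i <;> simp

@[simp] lemma ssEps_apply (v : Fin 2 → k) (i : Fin 2) :
    ssEps v i = (TrivSqZeroExt.inr (v i) : DualNumber k) := rfl

lemma ssEps_injective : Function.Injective (ssEps (k := k)) := by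
  intro x y h
  ext i
  have := congrFun h i
  exact TrivSqZeroExt.inr_injective this

lemma ss_dual_mul_inr (x : DualNumber k) (c : k) :
    x * (TrivSqZeroExt.inr c : DualNumber k) = TrivSqZeroExt.inr (x.fst * c) := by
  apply TrivSqZeroExt.ext
  · simp
  · simp [mul_comm]

lemma ssEps_act (ρbar : ResidualGaloisRep k) (b : Module.Basis (Fin 2) k ρbar.V)
    {r : GQ →* Matrix (Fin 2) (Fin 2) (DualNumber k)} (hr : IsDualLift ρbar b r) (σ : GQ)
    (v : Fin 2 → k) : ssEps (ssAct (rbarMat ρbar b) σ v) = dualAct r σ (ssEps v) := by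
  ext l : 1
  rw [ssEps_apply, ssAct_apply, dualAct_apply, Matrix.mulVec, Matrix.mulVec, dotProduct, dotProduct]
  simp only [ssEps_apply, ss_dual_mul_inr]
  rw [← hr σ]
  simp only [mFst, Matrix.map_apply]
  rw [← TrivSqZeroExt.inrHom_apply (R := k) (M := k), map_sum]
  rfl

/-- the model of `ρbar` cut out of the model of a lift -/
theorem ss_exists_model_rbar (𝔓 : FFPlace) (ρbar : ResidualGaloisRep k)
    (b : Module.Basis (Fin 2) k ρbar.V)
    {r : GQ →* Matrix (Fin 2) (Fin 2) (DualNumber k)} (hr : IsDualLift ρbar b r)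
    (M : FFModel 𝔓 (DualPts k) (dualAct r))
    (hM : ∀ u : (DualNumber k)ˣ, ∀ f ∈ M.carrier, (fun x => f (u • x)) ∈ M.carrier) :
    ∃ M₁ : FFModel 𝔓 (Fin 2 → k) (ssAct (rbarMat ρbar b)),
      ∀ u : kˣ, ∀ f ∈ M₁.carrier, (fun x => f ((u : k) • x)) ∈ M₁.carrier := by
  refine ⟨M.comap ssEps ssEps_injective fun σ _ y => ssEps_act ρbar b hr σ y, ?_⟩
  intro u f hf
  rw [FFModel.mem_comap_carrier] at hf ⊢
  obtain ⟨F, hF, rfl⟩ := hf
  let U : (DualNumber k)ˣ := Units.map (TrivSqZeroExt.inlHom k k).toMonoidHom u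
  refine ⟨_, hM U F hF, ?_⟩
  funext x
  simp only [Function.comp_apply]
  congr 1
  ext i : 1
  show (U : DualNumber k) • (ssEps x) i = ssEps ((u : k) • x) i
  rw [ssEps_apply, ssEps_apply, Pi.smul_apply, smul_eq_mul, smul_eq_mul]
  show (TrivSqZeroExt.inl (u : k) : DualNumber k) * _ = _
  rw [ss_dual_mul_inr, TrivSqZeroExt.fst_inl]


namespace FFPlace

variable {𝔓 : FFPlace} {π₀ : Qb} {ch : GQ → k}

/-- `ch σ = ch τ` iff `σ π₀ / π₀ ≡ τ π₀ / π₀` -/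
lemma LFFund.eq_iff (h : 𝔓.LFFund π₀ ch) {σ τ : GQ} (hσ : σ ∈ 𝔓.I) (hτ : τ ∈ 𝔓.I) :
    ch σ = ch τ ↔ 𝔓.v.Gt (σ π₀ / π₀ - τ π₀ / π₀) 0 := by
  classical
  by_cases hστ : σ = τ
  · subst hστ
    rw [sub_self]
    exact ⟨fun _ => Or.inl rfl, fun _ => rfl⟩
  · have := h.2 {σ, τ} (fun x => if x = σ then 1 else -1) (by
      intro x hx
      rcases Finset.mem_insert.1 hx with rfl | hx
      · exact hσ
      · rw [Finset.mem_singleton.1 hx]; exact hτ)
    rw [Finset.sum_pair hστ, Finset.sum_pair hστ, if_pos rfl, if_neg (Ne.symm hστ)] at this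
    simp only [Int.cast_one, one_mul, Int.cast_neg, neg_mul] at this
    rw [← sub_eq_add_neg, ← sub_eq_add_neg, sub_eq_zero] at this
    exact this

end FFPlace

/-- a supersingular frame: an eigenbasis of `ρbar` on the inertia group with fundamental
characters of level two, swapped by the Frobenius elements -/
structure SSFrame (𝔓 : FFPlace) (ρbar : ResidualGaloisRep k) (π₀ : Qb)
    (bs : Module.Basis (Fin 2) k ρbar.V) (φ : Fin 2 → GQ → k) : Prop where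
  char : ((𝔓.p : ℕ) : k) = 0
  pi0 : π₀ ^ (𝔓.p ^ 2 - 1) = -(𝔓.p : Qb)
  eig : ∀ σ ∈ 𝔓.I, ∀ i, ρbar.ρ σ (bs i) = φ i σ • bs i
  fund : 𝔓.LFFund π₀ (φ 0)
  frob : ∀ σ ∈ 𝔓.I, ∀ i, φ (i + 1) σ = φ i σ ^ 𝔓.p
  ne : ∃ τ₀ ∈ 𝔓.I, φ 0 τ₀ ≠ φ 1 τ₀
  swap : ∀ F : GQ, 𝔓.P.IsFrobeniusAt F 𝔓.p → ∀ i, ∃ α : k, ρbar.ρ F (bs i) = α • bs (i + 1)

namespace SSFrame

variable {𝔓 : FFPlace} {ρbar : ResidualGaloisRep k} {π₀ : Qb}
  {bs : Module.Basis (Fin 2) k ρbar.V} {φ : Fin 2 → GQ → k} (fr : SSFrame 𝔓 ρbar π₀ bs φ)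
include fr

lemma charP : CharP k 𝔓.p := (CharP.charP_iff_prime_eq_zero 𝔓.hp).2 fr.char

lemma phi_one (i : Fin 2) : φ i 1 = 1 := by
  have h := fr.eig 1 𝔓.I.one_mem i
  rw [map_one, Module.End.one_apply] at h
  have h2 : (1 - φ i 1) • bs i = 0 := by rw [sub_smul, one_smul, ← h, sub_self]
  rcases smul_eq_zero.1 h2 with h3 | h3
  · exact (sub_eq_zero.1 h3).symm
  · exact absurd h3 (bs.ne_zero i)

lemma phi_mul (i : Fin 2) {σ τ : GQ} (hσ : σ ∈ 𝔓.I) (hτ : τ ∈ 𝔓.I) :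
    φ i (σ * τ) = φ i σ * φ i τ := by
  have h := fr.eig (σ * τ) (𝔓.I.mul_mem hσ hτ) i
  rw [map_mul, Module.End.mul_apply, fr.eig τ hτ i, map_smul, fr.eig σ hσ i, smul_smul] at h
  have h2 : (φ i τ * φ i σ - φ i (σ * τ)) • bs i = 0 := by rw [sub_smul, h, sub_self]
  rcases smul_eq_zero.1 h2 with h3 | h3
  · rw [← sub_eq_zero.1 h3, mul_comm]
  · exact absurd h3 (bs.ne_zero i)

lemma phi_pow (i : Fin 2) {σ : GQ} (hσ : σ ∈ 𝔓.I) (m : ℕ) : φ i (σ ^ m) = φ i σ ^ m := by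
  induction m with
  | zero => rw [pow_zero, pow_zero, fr.phi_one]
  | succ m ih => rw [pow_succ, pow_succ, fr.phi_mul i (𝔓.I.pow_mem hσ m) hσ, ih]

lemma frob' {σ : GQ} (hσ : σ ∈ 𝔓.I) (i : Fin 2) : φ i σ = φ (i + 1) σ ^ 𝔓.p := by
  have := fr.frob σ hσ (i + 1)
  rwa [ss_fin_two_add] at this

lemma pow_sq {σ : GQ} (hσ : σ ∈ 𝔓.I) (i : Fin 2) : φ i σ ^ (𝔓.p ^ 2) = φ i σ := by
  rw [sq, pow_mul, ← fr.frob σ hσ i, ← fr.frob' hσ i]

/-- both characters are fundamental -/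
lemma fund_all (i : Fin 2) : 𝔓.LFFund π₀ (φ i) := by
  haveI := fr.charP
  haveI : Fact 𝔓.p.Prime := ⟨𝔓.hp⟩
  have h01 : ∀ j : Fin 2, j = 0 ∨ j = 0 + 1 := by
    intro j; fin_cases j
    · exact Or.inl rfl
    · exact Or.inr rfl
  rcases h01 i with rfl | rfl
  · exact fr.fund
  · refine ⟨fun σ hσ τ hτ => fr.phi_mul _ hσ hτ, fun t n ht => ?_⟩
    rw [← fr.fund.2 t n ht]
    have h1 : ∑ σ ∈ t, (n σ : k) * φ (0 + 1) σ = frobenius k 𝔓.p (∑ σ ∈ t, (n σ : k) * φ 0 σ) := by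
      rw [map_sum]
      refine Finset.sum_congr rfl fun σ hσ => ?_
      rw [map_mul, map_intCast, frobenius_def, fr.frob σ (ht σ hσ) 0]
    rw [h1]
    exact (frobenius_inj k 𝔓.p).eq_iff' (map_zero _)

lemma pi0_ne_zero : π₀ ≠ 0 := 𝔓.ss_pi_ne_zero fr.pi0

/-- the characters are trivial on the stabiliser of `π₀` -/
lemma phi_fix {σ : GQ} (hσ : σ ∈ 𝔓.I) (hσπ : σ π₀ = π₀) (i : Fin 2) : φ i σ = 1 := by
  rw [← fr.phi_one i, (fr.fund_all i).eq_iff hσ 𝔓.I.one_mem, hσπ, AlgEquiv.one_apply, sub_self]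
  exact Or.inl rfl

/-- `ρbar` is trivial on the stabiliser of `π₀` -/
lemma rho_fix {σ : GQ} (hσ : σ ∈ 𝔓.I) (hσπ : σ π₀ = π₀) : ρbar.ρ σ = 1 := by
  apply bs.ext
  intro i
  rw [fr.eig σ hσ i, fr.phi_fix hσ hσπ i, one_smul, Module.End.one_apply]

/-- the matrices of `ρbar` on the inertia group are diagonal -/
lemma rbarMat_apply {σ : GQ} (hσ : σ ∈ 𝔓.I) (l j : Fin 2) :
    rbarMat ρbar bs σ l j = if l = j then φ j σ else 0 := by
  unfold rbarMat
  rw [LinearMap.toMatrix_apply, fr.eig σ hσ j, map_smul, Module.Basis.repr_self,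
    Finsupp.smul_apply, Finsupp.single_apply, smul_eq_mul]
  split_ifs with h1 h2 h2
  · rw [mul_one]
  · exact absurd h1.symm h2
  · exact absurd h2.symm h1
  · rw [mul_zero]

/-- a dual lift of `ρbar` in the eigenbasis satisfies the hypotheses of (E-eps)/(E-top) -/
theorem toSSLift {r : GQ →* Matrix (Fin 2) (Fin 2) (DualNumber k)} (hr : IsDualLift ρbar bs r) :
    SSLift 𝔓 π₀ r where
  char := fr.char
  diag := by
    intro σ hσ i j hij
    have h1 : (r σ i j).fst = rbarMat ρbar bs σ i j := by rw [← hr σ]; rfl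
    rw [h1, fr.rbarMat_apply hσ, if_neg hij]
  fix := by
    intro σ hσ hσπ i
    have h1 : (r σ i i).fst = rbarMat ρbar bs σ i i := by rw [← hr σ]; rfl
    rw [h1, fr.rbarMat_apply hσ, if_pos rfl, fr.phi_fix hσ hσπ]
  nonrat := by
    obtain ⟨τ₀, hτ₀, hne⟩ := fr.ne
    have hfst : ∀ i, (r τ₀ i i).fst = φ i τ₀ := by
      intro i
      have h1 : (r τ₀ i i).fst = rbarMat ρbar bs τ₀ i i := by rw [← hr τ₀]; rfl
      rw [h1, fr.rbarMat_apply hτ₀, if_pos rfl]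
    intro i
    refine ⟨τ₀, hτ₀, ?_⟩
    rw [hfst, ← fr.frob τ₀ hτ₀ i]
    fin_cases i
    · exact fun h => hne h.symm
    · exact fun h => hne h

end SSFrame


/-- **existence of a supersingular frame** from one flat lift -/
theorem ss_exists_frame [Finite k] (𝔓 : FFPlace) (hU : 𝔓.Unr) (ρbar : ResidualGaloisRep k)
    (b : Module.Basis (Fin 2) k ρbar.V) (hpk : ((𝔓.p : ℕ) : k) = 0)
    (hsplit : ∀ σ : GQ, ∃ α β : k, LinearMap.charpoly (ρbar.ρ σ) = (X - C α) * (X - C β))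
    (hirr : ¬ ∃ v₀ : ρbar.V, v₀ ≠ 0 ∧ ∀ σ ∈ 𝔓.D, ∃ x : k, ρbar.ρ σ v₀ = x • v₀)
    {r : GQ →* Matrix (Fin 2) (Fin 2) (DualNumber k)} (hr : IsDualLift ρbar b r)
    (M : FFModel 𝔓 (DualPts k) (dualAct r))
    (hM : ∀ u : (DualNumber k)ˣ, ∀ f ∈ M.carrier, (fun x => f (u • x)) ∈ M.carrier)
    {π₀ : Qb} (hπ₀ : π₀ ^ (𝔓.p ^ 2 - 1) = -(𝔓.p : Qb)) :
    ∃ (bs : Module.Basis (Fin 2) k ρbar.V) (φ : Fin 2 → GQ → k), SSFrame 𝔓 ρbar π₀ bs φ := by
  haveI : NeZero 𝔓.p := ⟨𝔓.hp.ne_zero⟩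
  obtain ⟨ζ, hζ⟩ := HasEnoughRootsOfUnity.exists_primitiveRoot Qb 𝔓.p
  have H := ss_hyp_rbar 𝔓 ρbar b hpk hsplit hirr
  obtain ⟨M₁, hk⟩ := ss_exists_model_rbar 𝔓 ρbar b hr M hM
  obtain ⟨e₁, e₂, φ₁, φ₂, hl₁, hl₂, hind, hspan, hfund, h21, h12, hne, hswap⟩ :=
    ss_structure H hU M₁ hk hπ₀ hζ
  have hli : LinearIndependent k ![e₁, e₂] := LinearIndependent.pair_iff.2 hind
  have hsp : ⊤ ≤ Submodule.span k (Set.range ![e₁, e₂]) := by
    intro v _
    obtain ⟨a, b, rfl⟩ := hspan v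
    have h1 : e₁ ∈ Submodule.span k (Set.range ![e₁, e₂]) := Submodule.subset_span ⟨0, rfl⟩
    have h2 : e₂ ∈ Submodule.span k (Set.range ![e₁, e₂]) := Submodule.subset_span ⟨1, rfl⟩
    exact Submodule.add_mem _ (Submodule.smul_mem _ a h1) (Submodule.smul_mem _ b h2)
  set E : Module.Basis (Fin 2) k (Fin 2 → k) := Module.Basis.mk hli hsp with hE
  have hE0 : E 0 = e₁ := by rw [hE, Module.Basis.mk_apply]; rfl
  have hE1 : E 1 = e₂ := by rw [hE, Module.Basis.mk_apply]; rfl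
  set bs : Module.Basis (Fin 2) k ρbar.V := E.map b.equivFun.symm with hbs
  have hbs0 : bs 0 = b.equivFun.symm e₁ := by rw [hbs, Module.Basis.map_apply, hE0]
  have hbs1 : bs 1 = b.equivFun.symm e₂ := by rw [hbs, Module.Basis.map_apply, hE1]
  refine ⟨bs, ![φ₁, φ₂], hpk, hπ₀, ?_, hfund, ?_, ?_, ?_⟩
  · intro σ hσ i
    fin_cases i
    · show ρbar.ρ σ (bs 0) = φ₁ σ • bs 0
      rw [hbs0, rho_equivFun_symm, hl₁.eig σ hσ, map_smul]
    · show ρbar.ρ σ (bs 1) = φ₂ σ • bs 1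
      rw [hbs1, rho_equivFun_symm, hl₂.eig σ hσ, map_smul]
  · intro σ hσ i
    fin_cases i
    · exact h21 σ hσ
    · exact h12 σ hσ
  · obtain ⟨τ₀, hτ₀, h⟩ := hne
    exact ⟨τ₀, hτ₀, h⟩
  · intro F hF i
    obtain ⟨α, β, hα, hβ⟩ := hswap F hF
    fin_cases i
    · refine ⟨α, ?_⟩
      show ρbar.ρ F (bs 0) = α • bs 1
      rw [hbs0, hbs1, rho_equivFun_symm, hα, map_smul]
    · refine ⟨β, ?_⟩
      show ρbar.ρ F (bs 1) = β • bs 0
      rw [hbs0, hbs1, rho_equivFun_symm, hβ, map_smul]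

end

end Fermat.Agent.TW
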