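/-
P10 / G7 WP-E (helper2): pure algebra for (E-top).

For an `𝔽_p`-linear functional `ℓ` on a finite field `k` and `t ∈ k` with `t ^ (p²) = t`,
`ssZ p ℓ t = {b | ℓ b = 0 ∧ ℓ (t b) = 0}` is the largest `𝔽_p[t]`-subspace of `ker ℓ`; it has index
at most `p²`, is stable under `t` and under division by `t - a` (`a ∈ 𝔽_p`, `t ∉ 𝔽_p`).
-/
import Mathlib

set_option autoImplicit false
set_option linter.style.haveILetI false
set_option linter.unusedSectionVars false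

namespace Fermat.Agent.TW

variable {k : Type} [Field k] (p : ℕ) [Fact p.Prime] [Algebra (ZMod p) k]

/-- the pair of functionals `b ↦ (ℓ b, ℓ (t b))` -/
noncomputable def ssPair (ℓ : k →ₗ[ZMod p] ZMod p) (t : k) : k →ₗ[ZMod p] ZMod p × ZMod p :=
  ℓ.prod (ℓ ∘ₗ LinearMap.mulLeft (ZMod p) t)

/-- the largest `𝔽_p[t]`-subspace of `ker ℓ` (for `t` quadratic over `𝔽_p`) -/
noncomputable def ssZ (ℓ : k →ₗ[ZMod p] ZMod p) (t : k) : Submodule (ZMod p) k :=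
  LinearMap.ker (ssPair p ℓ t)

variable {p}

lemma mem_ssZ (ℓ : k →ₗ[ZMod p] ZMod p) (t b : k) : b ∈ ssZ p ℓ t ↔ ℓ b = 0 ∧ ℓ (t * b) = 0 := by
  unfold ssZ ssPair
  rw [LinearMap.mem_ker, LinearMap.prod_apply, Prod.ext_iff]
  rfl

lemma ssZ_le_ker (ℓ : k →ₗ[ZMod p] ZMod p) (t : k) : ssZ p ℓ t ≤ LinearMap.ker ℓ :=
  fun b hb => ((mem_ssZ ℓ t b).1 hb).1

lemma ss_exists_intCast [CharP k p] {x : k} (hx : x ^ p = x) : ∃ n : ℤ, (n : k) = x :=
  (mem_bot_iff_intCast p k).1 ((Subfield.mem_bot_iff_pow_eq_self k p).2 hx)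

lemma ssZ_mul_mem [CharP k p] (ℓ : k →ₗ[ZMod p] ZMod p) {t : k} (ht : t ^ (p ^ 2) = t) {b : k}
    (hb : b ∈ ssZ p ℓ t) : t * b ∈ ssZ p ℓ t := by
  rw [mem_ssZ] at hb ⊢
  refine ⟨hb.2, ?_⟩
  have hT : (t + t ^ p) ^ p = t + t ^ p := by
    rw [add_pow_char, ← pow_mul, ← sq, ht, add_comm]
  have hN : (t * t ^ p) ^ p = t * t ^ p := by
    rw [mul_pow, ← pow_mul, ← sq, ht, mul_comm]
  obtain ⟨nT, hnT⟩ := ss_exists_intCast hT
  obtain ⟨nN, hnN⟩ := ss_exists_intCast hN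
  have h1 : t * (t * b) = nT • (t * b) - nN • b := by
    rw [zsmul_eq_mul, zsmul_eq_mul, hnT, hnN]
    ring
  rw [h1, map_sub, map_zsmul, map_zsmul, hb.1, hb.2, smul_zero, smul_zero, sub_zero]

lemma ssZ_pow_mul_mem [CharP k p] (ℓ : k →ₗ[ZMod p] ZMod p) {t : k} (ht : t ^ (p ^ 2) = t)
    (m : ℕ) {b : k} (hb : b ∈ ssZ p ℓ t) : t ^ m * b ∈ ssZ p ℓ t := by
  induction m with
  | zero => rwa [pow_zero, one_mul]
  | succ m ih =>
    rw [pow_succ', mul_assoc]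
    exact ssZ_mul_mem ℓ ht ih

lemma ssZ_of_sub_mul_mem [CharP k p] [Finite k] (ℓ : k →ₗ[ZMod p] ZMod p) {t : k}
    (ht : t ^ (p ^ 2) = t) (htp : t ^ p ≠ t) (a : ℕ) {b : k}
    (hb : (t - (a : k)) * b ∈ ssZ p ℓ t) : b ∈ ssZ p ℓ t := by
  have hne : t - (a : k) ≠ 0 := by
    intro h
    apply htp
    rw [sub_eq_zero.1 h]
    clear h hb
    induction a with
    | zero => simp [(Fact.out : p.Prime).ne_zero]
    | succ a ih => rw [Nat.cast_succ, add_pow_char, ih, one_pow]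
  -- stability under `t - a`
  have hst : ∀ z ∈ ssZ p ℓ t, (t - (a : k)) * z ∈ ssZ p ℓ t := by
    intro z hz
    have : (t - (a : k)) * z = t * z - a • z := by rw [nsmul_eq_mul]; ring
    rw [this]
    exact (ssZ p ℓ t).sub_mem (ssZ_mul_mem ℓ ht hz) ((ssZ p ℓ t).smul_of_tower_mem a hz)
  have hpow : ∀ m : ℕ, ∀ z ∈ ssZ p ℓ t, (t - (a : k)) ^ m * z ∈ ssZ p ℓ t := by
    intro m
    induction m with
    | zero => intro z hz; rwa [pow_zero, one_mul]
    | succ m ih =>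
      intro z hz
      rw [pow_succ', mul_assoc]
      exact hst _ (ih z hz)
  haveI : Fintype k := Fintype.ofFinite k
  have hcard := FiniteField.pow_card_sub_one_eq_one (t - (a : k)) hne
  have h2 : 2 ≤ Fintype.card k := Fintype.one_lt_card
  have h1 : (t - (a : k)) ^ (Fintype.card k - 2) * ((t - (a : k)) * b) = b := by
    rw [← mul_assoc, ← pow_succ]
    have : Fintype.card k - 2 + 1 = Fintype.card k - 1 := by omega
    rw [this, hcard, one_mul]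
  rw [← h1]
  exact hpow _ _ hb

lemma ssZ_card_quot_le (ℓ : k →ₗ[ZMod p] ZMod p) (t : k) :
    Nat.card (k ⧸ ssZ p ℓ t) ≤ p ^ 2 := by
  have e := (ssPair p ℓ t).quotKerEquivRange
  have h1 : Nat.card (k ⧸ ssZ p ℓ t) = Nat.card (LinearMap.range (ssPair p ℓ t)) :=
    Nat.card_congr e.toEquiv
  rw [h1]
  have h2 : Nat.card (LinearMap.range (ssPair p ℓ t)) ≤ Nat.card (ZMod p × ZMod p) :=
    Nat.card_le_card_of_injective _ Subtype.val_injective
  refine h2.trans ?_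
  rw [Nat.card_prod, Nat.card_zmod, sq]

end Fermat.Agent.TW
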