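/-
P10 / G7 WP-E (helper2): (E-eps) and (E-top) for a flat lift in a supersingular frame.

Let `fr : SSFrame 𝔓 ρbar π₀ bs φ`, `r` a dual lift of `ρbar` in the eigenbasis `bs` with residual
determinant and a function model `M` of its points (`r` flat).  With `E0 = K0(π₀)`:

* `SSFrame.flat_diag` : `r τ i i = 1` for all `τ ∈ Gal(ℚ̄/E0)`   (model side `SSLift.eps` + helper5's
  (KS-eps) `lf_ss_eps`);
* `SSFrame.flat_off`  : every Kummer generator `y` over `E0` of `ℓ ∘ (τ ↦ ε-part of r τ (i+1) i)`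
  has `y ^ p ∈ U^(p²+1) · E0^{×p}`   (`SSLift.top` + (KS-top) `lf_ss_top` + the classification
  `ssc_dep_level`).
-/
import Fermat.Agent.Lib.TW.LF.SS
import Fermat.Agent.Lib.TW.Flat.SS.Frame
import Fermat.Agent.Lib.TW.Flat.SS.TopZ
import Fermat.Agent.Lib.TW.Local.Unramified

set_option autoImplicit false
set_option linter.style.haveILetI false

namespace Fermat.Agent.TW

open Fermat.Agent.S05Lib Fermat.Agent.S53Lib Polynomial

local notation "Qb" => AlgebraicClosure ℚ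
local notation "GQ" => (AlgebraicClosure ℚ ≃ₐ[ℚ] AlgebraicClosure ℚ)

noncomputable section

variable {k : Type} [Field k]

/-! ## Matrix lemmas -/

/-- conjugating an element of the kernel of the reduction -/
lemma ss_mSnd_conj (r : GQ →* Matrix (Fin 2) (Fin 2) (DualNumber k)) (g τ : GQ)
    (hτ : mFst (r τ) = 1) :
    mSnd (r (g * τ * g⁻¹)) = mFst (r g) * mSnd (r τ) * mFst (r g⁻¹) := by
  have h1 : mFst (r g) * mSnd (r g⁻¹) + mSnd (r g) * mFst (r g⁻¹) = 0 := by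
    rw [← mSnd_mul, ← map_mul, mul_inv_cancel, map_one, mSnd_one]
  rw [map_mul, map_mul, mSnd_mul, mSnd_mul, mFst_mul, hτ, mul_one, add_mul, mul_one]
  rw [add_comm (mFst (r g) * mSnd (r τ) * mFst (r g⁻¹)), ← add_assoc, h1, zero_add]

lemma ss_diag_conj (d d' : Fin 2 → k) (C : Matrix (Fin 2) (Fin 2) k) (l j : Fin 2) :
    (Matrix.diagonal d * C * Matrix.diagonal d') l j = d l * C l j * d' j := by
  rw [Matrix.mul_diagonal, Matrix.diagonal_mul]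

lemma ss_anti_conj (P P' C : Matrix (Fin 2) (Fin 2) k) (hP : ∀ i, P i i = 0)
    (hP' : ∀ i, P' i i = 0) (i : Fin 2) :
    (P * C * P') i i = P i (i + 1) * C (i + 1) (i + 1) * P' (i + 1) i := by
  rw [Matrix.mul_apply, ss_sum_fin_two i, hP', mul_zero, zero_add, Matrix.mul_apply,
    ss_sum_fin_two i, hP, zero_mul, zero_add]

lemma ss_anti_inv (P P' : Matrix (Fin 2) (Fin 2) k) (hP : ∀ i, P i i = 0) (h1 : P * P' = 1)
    (h2 : P' * P = 1) : (∀ i, P' i i = 0) ∧ ∀ i, P i (i + 1) * P' (i + 1) i = 1 := by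
  have hmul : ∀ i, P i (i + 1) * P' (i + 1) i = 1 := by
    intro i
    have := congrFun (congrFun h1 i) i
    rw [Matrix.mul_apply, ss_sum_fin_two i, hP, zero_mul, zero_add, Matrix.one_apply_eq] at this
    exact this
  refine ⟨fun i => ?_, hmul⟩
  have := congrFun (congrFun h2 i) (i + 1)
  rw [Matrix.mul_apply, ss_sum_fin_two i, hP, mul_zero, add_zero,
    Matrix.one_apply_ne (ss_fin_two_ne i).symm] at this
  rcases mul_eq_zero.1 this with h | h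
  · exact h
  · exfalso
    have := hmul i
    rw [h, zero_mul] at this
    exact zero_ne_one this

/-! ## Consequences of a frame for a dual lift in the eigenbasis -/

namespace SSFrame

variable {𝔓 : FFPlace} {ρbar : ResidualGaloisRep k} {π₀ : Qb}
  {bs : Module.Basis (Fin 2) k ρbar.V} {φ : Fin 2 → GQ → k} (fr : SSFrame 𝔓 ρbar π₀ bs φ)
  {r : GQ →* Matrix (Fin 2) (Fin 2) (DualNumber k)} (hr : IsDualLift ρbar bs r)
include fr hr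

lemma mFst_eq_diag {σ : GQ} (hσ : σ ∈ 𝔓.I) : mFst (r σ) = Matrix.diagonal (fun j => φ j σ) := by
  rw [hr σ]
  ext l j
  rw [fr.rbarMat_apply hσ, Matrix.diagonal_apply]
  split_ifs with h
  · rw [h]
  · rfl

lemma mFst_eq_one {τ : GQ} (hτ : τ ∈ 𝔓.I) (hτπ : τ π₀ = π₀) : mFst (r τ) = 1 := by
  rw [hr τ]
  unfold rbarMat
  rw [fr.rho_fix hτ hτπ, Module.End.one_eq_id, LinearMap.toMatrix_id]

lemma apply_eq_one_iff {τ : GQ} (hτ : τ ∈ 𝔓.I) (hτπ : τ π₀ = π₀) (i : Fin 2) :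
    r τ i i = 1 ↔ (r τ i i).snd = 0 := by
  have h1 : (r τ i i).fst = 1 := by
    have := congrFun (congrFun (fr.mFst_eq_one hr hτ hτπ) i) i
    rwa [Matrix.one_apply_eq] at this
  constructor
  · intro h
    rw [h]
    rfl
  · intro h
    exact TrivSqZeroExt.ext h1 h

omit hr in
lemma phi_inv {g : GQ} (hg : g ∈ 𝔓.I) (i : Fin 2) : φ i g * φ i g⁻¹ = 1 := by
  rw [← fr.phi_mul i hg (𝔓.I.inv_mem hg), mul_inv_cancel, fr.phi_one]

/-- conjugation by an element of the inertia group -/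
lemma snd_conj_inertia {g τ : GQ} (hg : g ∈ 𝔓.I) (hτ : τ ∈ 𝔓.I) (hτπ : τ π₀ = π₀) (l j : Fin 2) :
    (r (g * τ * g⁻¹) l j).snd = φ l g * (r τ l j).snd * φ j g⁻¹ := by
  have h := ss_mSnd_conj r g τ (fr.mFst_eq_one hr hτ hτπ)
  rw [fr.mFst_eq_diag hr hg, fr.mFst_eq_diag hr (𝔓.I.inv_mem hg)] at h
  have h2 := congrFun (congrFun h l) j
  rw [ss_diag_conj] at h2
  exact h2

/-- the `ε`-part of an element of the kernel of reduction has trace zero -/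
lemma snd_trace (hdet : HasResidualDet r) {τ : GQ} (hτ : τ ∈ 𝔓.I) (hτπ : τ π₀ = π₀) (i : Fin 2) :
    (r τ (i + 1) (i + 1)).snd = -(r τ i i).snd := by
  have h1 := snd_det (r τ)
  rw [hdet τ, fr.mFst_eq_one hr hτ hτπ, Matrix.adjugate_one, mul_one, Matrix.trace_fin_two] at h1
  have h2 : (r τ i i).snd + (r τ (i + 1) (i + 1)).snd = 0 := by
    fin_cases i
    · exact h1.symm
    · rw [add_comm]; exact h1.symm
  exact eq_neg_of_add_eq_zero_right h2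

/-- conjugation by a Frobenius element swaps the diagonal entries -/
lemma snd_conj_frob {F : GQ} (hF : 𝔓.P.IsFrobeniusAt F 𝔓.p) {τ : GQ} (hτ : τ ∈ 𝔓.I)
    (hτπ : τ π₀ = π₀) (i : Fin 2) :
    (r (F * τ * F⁻¹) i i).snd = (r τ (i + 1) (i + 1)).snd := by
  have h := ss_mSnd_conj r F τ (fr.mFst_eq_one hr hτ hτπ)
  have hP : ∀ i, mFst (r F) i i = 0 := by
    intro i
    obtain ⟨α, hα⟩ := fr.swap F hF i
    rw [hr F]
    unfold rbarMat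
    rw [LinearMap.toMatrix_apply, hα, map_smul, Module.Basis.repr_self, Finsupp.smul_apply,
      Finsupp.single_apply, if_neg (ss_fin_two_ne i), smul_zero]
  have h1 : mFst (r F) * mFst (r F⁻¹) = 1 := by
    rw [← mFst_mul, ← map_mul, mul_inv_cancel, map_one, mFst_one]
  have h2 : mFst (r F⁻¹) * mFst (r F) = 1 := by
    rw [← mFst_mul, ← map_mul, inv_mul_cancel, map_one, mFst_one]
  obtain ⟨hP', hmul⟩ := ss_anti_inv _ _ hP h1 h2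
  have h3 := congrFun (congrFun h i) i
  rw [ss_anti_conj _ _ _ hP hP'] at h3
  have h4 : (r (F * τ * F⁻¹) i i).snd =
      mFst (r F) i (i + 1) * mSnd (r τ) (i + 1) (i + 1) * mFst (r F⁻¹) (i + 1) i := h3
  rw [h4, mul_right_comm, hmul i, one_mul]
  rfl

end SSFrame

/-! ## (E-eps) -/

/-- **(E-eps)**: the diagonal entries of a flat lift are trivial on `Gal(ℚ̄/E0)` -/
theorem SSFrame.flat_diag [Finite k] {𝔓 : FFPlace} [Algebra (ZMod 𝔓.p) k]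
    {ρbar : ResidualGaloisRep k} {π₀ : Qb}
    {bs : Module.Basis (Fin 2) k ρbar.V} {φ : Fin 2 → GQ → k} (fr : SSFrame 𝔓 ρbar π₀ bs φ)
    (hU : 𝔓.Unr) (hp2 : 𝔓.p ≠ 2)
    {r : GQ →* Matrix (Fin 2) (Fin 2) (DualNumber k)} (hr : IsDualLift ρbar bs r)
    (hdet : HasResidualDet r) (hcts : MatCts (DualNumber k) r)
    (M : FFModel 𝔓 (DualPts k) (dualAct r)) :
    ∀ τ ∈ 𝔓.I, τ π₀ = π₀ → ∀ i, r τ i i = 1 := by
  intro τ hτ hτπ i
  haveI : NeZero 𝔓.p := ⟨𝔓.hp.ne_zero⟩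
  obtain ⟨ζ, hζ⟩ := HasEnoughRootsOfUnity.exists_primitiveRoot Qb 𝔓.p
  obtain ⟨F, hF⟩ := Fermat.Agent.Lib.Helper6.exists_isFrobeniusAt 𝔓.P 𝔓.hp 𝔓.hP
  have hp1 : (1 : ℚ) < 𝔓.p := by exact_mod_cast 𝔓.hp.one_lt
  have hc : 1 / ((𝔓.p : ℚ) ^ 2 - 1) < (𝔓.p : ℚ) / ((𝔓.p : ℚ) ^ 2 - 1) := by
    have : (0 : ℚ) < (𝔓.p : ℚ) ^ 2 - 1 := by nlinarith
    exact div_lt_div_of_pos_right hp1 this
  have hE0 : ∀ {σ : GQ}, σ ∈ (lfAdjoin 𝔓.K0 π₀).fixingSubgroup ↔ σ ∈ 𝔓.I ∧ σ π₀ = π₀ :=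
    fun {σ} => 𝔓.ssc_mem_E0_fix_iff fr.pi0
  refine (fr.toSSLift hr).eps hU M fr.pi0 hζ i hc ?_ τ hτ hτπ
  intro τ hτ hτπ z hz hfix
  set γ : GQ → k := fun σ => (r σ i i).snd with hγ
  refine 𝔓.lf_ss_eps hp2 fr.pi0 γ ?_ ?_ ?_ hF ?_ (hE0.2 ⟨hτ, hτπ⟩) hz ?_
  · -- additivity
    intro σ hσ τ' hτ'
    obtain ⟨hσI, hσπ⟩ := hE0.1 hσ
    obtain ⟨hτI, hτ'π⟩ := hE0.1 hτ'
    have h1 := mSnd_mul (r σ) (r τ')
    rw [fr.mFst_eq_one hr hσI hσπ, fr.mFst_eq_one hr hτI hτ'π, one_mul, mul_one, ← map_mul] at h1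
    have h2 := congrFun (congrFun h1 i) i
    rw [add_comm] at h2
    exact h2
  · -- continuity
    obtain ⟨L, hL, hLr⟩ := tw_factors_of_matCts r hcts
    refine ⟨L, hL, fun σ _ hσL => ?_⟩
    have : r σ = 1 := hLr σ ((IntermediateField.mem_fixingSubgroup_iff _ _).1 hσL)
    show (r σ i i).snd = 0
    rw [this, Matrix.one_apply_eq]
    rfl
  · -- invariance under the inertia group
    intro g hg τ' hτ'
    obtain ⟨hτI, hτ'π⟩ := hE0.1 hτ'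
    show (r (g * τ' * g⁻¹) i i).snd = (r τ' i i).snd
    rw [fr.snd_conj_inertia hr hg hτI hτ'π, mul_right_comm, fr.phi_inv hg, one_mul]
  · -- anti-invariance under the Frobenius
    intro τ' hτ'
    obtain ⟨hτI, hτ'π⟩ := hE0.1 hτ'
    show (r (F * τ' * F⁻¹) i i).snd = -(r τ' i i).snd
    rw [fr.snd_conj_frob hr hF hτI hτ'π, fr.snd_trace hr hdet hτI hτ'π]
  · intro σ hσ hγσ
    obtain ⟨hσI, hσπ⟩ := hE0.1 hσ
    exact hfix σ hσI hσπ ((fr.apply_eq_one_iff hr hσI hσπ i).2 hγσ)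

/-! ## (E-top) -/

/-- every value of `φ j` on the inertia group is a power of the value at a tame generator -/
lemma SSFrame.phi_eq_pow {𝔓 : FFPlace} {ρbar : ResidualGaloisRep k} {π₀ : Qb}
    {bs : Module.Basis (Fin 2) k ρbar.V} {φ : Fin 2 → GQ → k} (fr : SSFrame 𝔓 ρbar π₀ bs φ)
    {g₁ : GQ} (hg₁ : g₁ ∈ 𝔓.I) {ξ : Qb} (hξ : IsPrimitiveRoot ξ (𝔓.p ^ 2 - 1))
    (hgξ : g₁ π₀ = ξ * π₀) {σ : GQ} (hσ : σ ∈ 𝔓.I) (j : Fin 2) :
    ∃ m : ℕ, φ j σ = φ j g₁ ^ m := by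
  haveI : NeZero (𝔓.p ^ 2 - 1) := ⟨𝔓.ss_sq_sub_one_pos.ne'⟩
  obtain ⟨m, -, hm⟩ := hξ.eq_pow_of_pow_eq_one (𝔓.ss_theta_pow fr.pi0 σ)
  refine ⟨m, ?_⟩
  rw [← fr.phi_pow j hg₁ m, (fr.fund_all j).eq_iff hσ (𝔓.I.pow_mem hg₁ m),
    𝔓.ssc_theta_npow fr.pi0 hg₁ m, hgξ, mul_div_cancel_right₀ _ fr.pi0_ne_zero, hm, sub_self]
  exact Or.inl rfl

/-- **(E-top)**: the Kummer classes of the off-diagonal entries of a flat lift have level
`≥ p² + 1` -/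
theorem SSFrame.flat_off [Finite k] {𝔓 : FFPlace} [Algebra (ZMod 𝔓.p) k]
    {ρbar : ResidualGaloisRep k} {π₀ : Qb}
    {bs : Module.Basis (Fin 2) k ρbar.V} {φ : Fin 2 → GQ → k} (fr : SSFrame 𝔓 ρbar π₀ bs φ)
    (hU : 𝔓.Unr) (hp2 : 𝔓.p ≠ 2)
    {r : GQ →* Matrix (Fin 2) (Fin 2) (DualNumber k)} (hr : IsDualLift ρbar bs r)
    (hcts : MatCts (DualNumber k) r)
    (M : FFModel 𝔓 (DualPts k) (dualAct r)) {ζ : Qb} (hζ : IsPrimitiveRoot ζ 𝔓.p) (i : Fin 2)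
    (ℓ : k →ₗ[ZMod 𝔓.p] ZMod 𝔓.p) {y : Qb} (hy0 : y ≠ 0)
    (hy : ∀ τ ∈ (lfAdjoin 𝔓.K0 π₀).fixingSubgroup,
      τ y = lfZPow ζ (ℓ ((r τ (i + 1) i).snd)) * y) :
    ∃ w ∈ lfAdjoin 𝔓.K0 π₀, w ≠ 0 ∧
      𝔓.v.Ge (y ^ 𝔓.p / w ^ 𝔓.p - 1) (((𝔓.p : ℚ) ^ 2 + 1) / ((𝔓.p : ℚ) ^ 2 - 1)) := by
  haveI : Fact 𝔓.p.Prime := ⟨𝔓.hp⟩
  haveI : CharP k 𝔓.p := fr.charP
  have hp1 : (1 : ℚ) < 𝔓.p := by exact_mod_cast 𝔓.hp.one_lt
  have hepos : (0 : ℚ) < (𝔓.p : ℚ) ^ 2 - 1 := by nlinarith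
  have hE0 : ∀ {σ : GQ}, σ ∈ (lfAdjoin 𝔓.K0 π₀).fixingSubgroup ↔ σ ∈ 𝔓.I ∧ σ π₀ = π₀ :=
    fun {σ} => 𝔓.ssc_mem_E0_fix_iff fr.pi0
  obtain ⟨g₁, hg₁, ξ, hξ, hgξ⟩ := 𝔓.ssc_exists_tame_gen fr.pi0
  set c : GQ → k := fun σ => (r σ (i + 1) i).snd with hc
  -- equivariance
  have hε : ∀ σ ∈ (lfAdjoin 𝔓.K0 π₀).fixingSubgroup,
      c (g₁ * σ * g₁⁻¹) = (φ i g₁ ^ (𝔓.p - 1)) • c σ := by
    intro σ hσ
    obtain ⟨hσI, hσπ⟩ := hE0.1 hσ
    show (r (g₁ * σ * g₁⁻¹) (i + 1) i).snd = (φ i g₁ ^ (𝔓.p - 1)) * (r σ (i + 1) i).snd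
    rw [fr.snd_conj_inertia hr hg₁ hσI hσπ, fr.frob g₁ hg₁ i, mul_right_comm]
    congr 1
    have h1 : φ i g₁ ^ 𝔓.p = φ i g₁ ^ (𝔓.p - 1) * φ i g₁ := by
      rw [← pow_succ, Nat.sub_add_cancel 𝔓.hp.one_lt.le]
    rw [h1, mul_assoc, fr.phi_inv hg₁, mul_one]
  rcases FFPlace.ssc_dep_level hp2 fr.pi0 hζ (fr.fund_all i) hg₁ hξ hgξ hε ℓ hy0 hy with h | h | h
  · -- `y ∈ E0`
    refine ⟨y, h, hy0, Or.inl ?_⟩
    rw [div_self (pow_ne_zero _ hy0), sub_self]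
  · -- exact level two: impossible
    exfalso
    obtain ⟨w, hw, hw0, hlev⟩ := h
    set t : k := φ (i + 1) g₁ with ht
    have htsq : t ^ (𝔓.p ^ 2) = t := fr.pow_sq hg₁ (i + 1)
    have htp : t ^ 𝔓.p ≠ t := by
      intro h1
      obtain ⟨τ₀, hτ₀, hne⟩ := fr.ne
      obtain ⟨m, hm⟩ := fr.phi_eq_pow hg₁ hξ hgξ hτ₀ (i + 1)
      have h2 : φ (i + 1 + 1) τ₀ = φ (i + 1) τ₀ := by
        rw [fr.frob τ₀ hτ₀ (i + 1), hm, ← pow_mul, mul_comm, pow_mul, h1]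
      rw [ss_fin_two_add] at h2
      fin_cases i
      · exact hne h2
      · exact hne h2.symm
    set Z : Submodule (ZMod 𝔓.p) k := ssZ 𝔓.p ℓ t with hZ
    set γ : GQ → k ⧸ Z := fun σ => Z.mkQ (c σ) with hγ
    set ℓ' : (k ⧸ Z) →ₗ[ZMod 𝔓.p] ZMod 𝔓.p := Z.liftQ ℓ (ssZ_le_ker ℓ t) with hℓ'
    have hlev' : 𝔓.v.Is (y ^ 𝔓.p / w ^ 𝔓.p - 1) (2 / ((𝔓.p : ℚ) ^ 2 - 1)) := by
      rw [← 𝔓.ssc_e_cast]
      exact_mod_cast hlev
    haveI : Finite (k ⧸ Z) := Finite.of_surjective Z.mkQ (Submodule.mkQ_surjective Z)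
    obtain ⟨τ, hτ, hne, hmove⟩ := 𝔓.lf_ss_top hp2 fr.pi0 hζ (ssZ_card_quot_le ℓ t) γ (by
        intro σ hσ τ' hτ'
        obtain ⟨hσI, hσπ⟩ := hE0.1 hσ
        obtain ⟨hτI, hτ'π⟩ := hE0.1 hτ'
        have h1 := mSnd_mul (r σ) (r τ')
        rw [fr.mFst_eq_one hr hσI hσπ, fr.mFst_eq_one hr hτI hτ'π, one_mul, mul_one,
          ← map_mul] at h1
        have h2 : c (σ * τ') = c τ' + c σ := congrFun (congrFun h1 (i + 1)) i
        show Z.mkQ (c (σ * τ')) = Z.mkQ (c σ) + Z.mkQ (c τ')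
        rw [h2, map_add, add_comm]) (by
        obtain ⟨L, hL, hLr⟩ := tw_factors_of_matCts r hcts
        refine ⟨L, hL, fun σ _ hσL => ?_⟩
        have : r σ = 1 := hLr σ ((IntermediateField.mem_fixingSubgroup_iff _ _).1 hσL)
        show Z.mkQ ((r σ (i + 1) i).snd) = 0
        rw [this, Matrix.one_apply_ne (ss_fin_two_ne i)]
        exact map_zero _) ℓ' hy0 (by
        intro σ hσ
        rw [hy σ hσ]
        rfl) hw hw0 hlev'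
    obtain ⟨hτI, hτπ⟩ := hE0.1 hτ
    have hcc : 1 / ((𝔓.p : ℚ) ^ 2 - 1) <
        ((𝔓.p : ℚ) ^ 2 + 𝔓.p - 1) / ((𝔓.p : ℚ) ^ 2 * ((𝔓.p : ℚ) ^ 2 - 1)) := by
      rw [div_lt_div_iff₀ hepos (by positivity)]
      nlinarith
    have hmem : (r τ (i + 1) i).snd ∈ Z.toAddSubgroup := by
      refine (fr.toSSLift hr).top hU M fr.pi0 hζ i Z.toAddSubgroup ?_ ?_ hcc hτI hτπ ?_
      · intro σ hσ b hb
        have h1 : (r σ (i + 1) (i + 1)).fst = φ (i + 1) σ := by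
          have := congrFun (congrFun (fr.mFst_eq_diag hr hσ) (i + 1)) (i + 1)
          rwa [Matrix.diagonal_apply_eq] at this
        obtain ⟨m, hm⟩ := fr.phi_eq_pow hg₁ hξ hgξ hσ (i + 1)
        rw [h1, hm]
        exact ssZ_pow_mul_mem ℓ htsq m hb
      · refine ⟨g₁, hg₁, fun a b hb => ?_⟩
        have h1 : (r g₁ (i + 1) (i + 1)).fst = t := by
          have := congrFun (congrFun (fr.mFst_eq_diag hr hg₁) (i + 1)) (i + 1)
          rwa [Matrix.diagonal_apply_eq] at this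
        rw [h1] at hb
        exact ssZ_of_sub_mul_mem ℓ htsq htp a hb
      · intro z hz hfix
        refine hmove z hz fun σ hσ hγσ => ?_
        obtain ⟨hσI, hσπ⟩ := hE0.1 hσ
        refine hfix σ hσI hσπ ?_
        exact (Submodule.Quotient.mk_eq_zero Z).1 hγσ
    apply hne
    show ℓ' (Z.mkQ (c τ)) = 0
    have : Z.mkQ (c τ) = 0 := (Submodule.Quotient.mk_eq_zero Z).2 hmem
    rw [this, map_zero]
  · -- exact level `p² + 1`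
    obtain ⟨w, hw, hw0, hlev⟩ := h
    refine ⟨w, hw, hw0, ?_⟩
    have h1 : (((𝔓.p ^ 2 + 1 : ℕ) : ℚ)) / ((𝔓.p ^ 2 - 1 : ℕ) : ℚ) =
        ((𝔓.p : ℚ) ^ 2 + 1) / ((𝔓.p : ℚ) ^ 2 - 1) := by
      rw [𝔓.ssc_e_cast]
      push_cast
      rfl
    rw [h1] at hlev
    exact hlev.ge

end

end Fermat.Agent.TW
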