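/-
P10 / G7 WP-E (helper2): **the flat local condition at `p` in the supersingular case**:
`ff_contractLocP_flat_irr` : if `ρbar` (over a finite field of characteristic `p ≥ 3`, all of whose
Galois elements have split characteristic polynomial) has NO line which is stable under the
decomposition group at `p`, then `ContractLocP p ρbar b (condFlat p)` holds.

The local condition is `0` if `ρbar` has no flat lift to `k[ε]` at all; otherwise one flat lift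
gives a supersingular frame (`ss_exists_frame`: eigenbasis on inertia, fundamental characters of
level two, Frobenius swaps), the local condition is helper5's `ssLpAt` (dimension `≤ h⁰ + 1`,
`Lib/TW/SSCount`), and every flat lift, conjugated into the eigenbasis (helper7's
`tw_exists_conj_lift`), satisfies (L0) = `SSFrame.flat_diag`, (L±) = `SSFrame.flat_off`.
-/
import Fermat.Agent.Lib.TW.Flat.SS.FlatLift
import Fermat.Agent.Lib.TW.SSCount.Final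
import Fermat.Agent.Lib.TW.Flat.BasisChange
import Fermat.Agent.Lib.TW.BaseChange
import Fermat.Agent.Lib.TW.Kum.Final
import Fermat.Agent.Lib.TW.Local.OrdCondition

set_option autoImplicit false
set_option linter.style.haveILetI false

namespace Fermat.Agent.TW

open Fermat.Agent.S05Lib Fermat.Agent.S53Lib Polynomial groupCohomology ExtCitation CategoryTheory

local notation "Qb" => AlgebraicClosure ℚ
local notation "GQ" => (AlgebraicClosure ℚ ≃ₐ[ℚ] AlgebraicClosure ℚ)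

noncomputable section

variable {k : Type} [Field k]

/-- the value of `φ 0` at a tame generator has order prime to ... : `(a₁ / a₂)² ≠ 1` -/
lemma SSFrame.ratio_sq_ne_one {𝔓 : FFPlace} {ρbar : ResidualGaloisRep k} {π₀ : Qb}
    {bs : Module.Basis (Fin 2) k ρbar.V} {φ : Fin 2 → GQ → k} (fr : SSFrame 𝔓 ρbar π₀ bs φ)
    {g₁ : GQ} (hg₁ : g₁ ∈ 𝔓.I) {ξ : Qb} (hξ : IsPrimitiveRoot ξ (𝔓.p ^ 2 - 1))
    (hgξ : g₁ π₀ = ξ * π₀) : (φ 0 g₁ * (φ 1 g₁)⁻¹) ^ 2 ≠ 1 := by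
  intro h
  have hp := 𝔓.hp
  have ha0 : φ 0 g₁ ≠ 0 := by
    intro h0
    have := fr.phi_inv hg₁ 0
    rw [h0, zero_mul] at this
    exact zero_ne_one this
  have ha1 : φ 1 g₁ ≠ 0 := by
    have := fr.frob g₁ hg₁ 0
    rw [zero_add] at this
    rw [this]
    exact pow_ne_zero _ ha0
  -- `a₁² = a₂²`
  have h1 : φ 0 g₁ ^ 2 = φ 1 g₁ ^ 2 := by
    rw [mul_pow, inv_pow] at h
    field_simp at h
    exact h
  have h2 : φ 1 g₁ = φ 0 g₁ ^ 𝔓.p := by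
    have := fr.frob g₁ hg₁ 0
    rwa [zero_add] at this
  rw [h2, ← pow_mul, ← fr.phi_pow 0 hg₁, ← fr.phi_pow 0 hg₁,
    fr.fund.eq_iff (𝔓.I.pow_mem hg₁ _) (𝔓.I.pow_mem hg₁ _), 𝔓.ssc_theta_npow fr.pi0 hg₁,
    𝔓.ssc_theta_npow fr.pi0 hg₁, hgξ, mul_div_cancel_right₀ _ fr.pi0_ne_zero] at h1
  have hcop : ¬ 𝔓.p ∣ 𝔓.p ^ 2 - 1 := by
    intro hd
    have h3 : 𝔓.p ∣ 𝔓.p ^ 2 := dvd_pow_self _ (by norm_num)
    have h4 : 1 ≤ 𝔓.p ^ 2 := Nat.one_le_pow _ _ hp.pos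
    have h5 : 𝔓.p ∣ 1 := by
      have := (Nat.dvd_sub h3 hd)
      rwa [Nat.sub_sub_self h4] at this
    exact hp.one_lt.ne' (Nat.dvd_one.1 h5)
  have heq : ξ ^ 2 = ξ ^ (𝔓.p * 2) := by
    by_contra hne
    have := 𝔓.lf_is_sub_of_pow_eq_one hcop (ξ := ξ ^ 2) (ξ' := ξ ^ (𝔓.p * 2))
      (by rw [← pow_mul, mul_comm, pow_mul, hξ.pow_eq_one, one_pow])
      (by rw [← pow_mul, mul_comm, pow_mul, hξ.pow_eq_one, one_pow]) hne
    rcases h1 with h0 | h0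
    · exact this.1 h0
    · rw [this.2] at h0
      exact lt_irrefl _ h0
  have hdvd := lf_dvd_sub_of_pow_eq 𝔓.ss_sq_sub_one_pos.ne' hξ heq
  have h2p : 2 ≤ 𝔓.p := hp.two_le
  have hcast : ((𝔓.p ^ 2 - 1 : ℕ) : ℤ) = (𝔓.p : ℤ) ^ 2 - 1 := by
    rw [Nat.cast_sub (Nat.one_le_pow _ _ hp.pos)]
    push_cast
    ring
  rw [hcast] at hdvd
  have h6 : (𝔓.p : ℤ) ^ 2 - 1 ∣ 2 * ((𝔓.p : ℤ) - 1) := by
    have : ((2 : ℕ) : ℤ) - ((𝔓.p * 2 : ℕ) : ℤ) = -(2 * ((𝔓.p : ℤ) - 1)) := by push_cast; ring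
    rw [this] at hdvd
    exact (dvd_neg).1 hdvd
  have h7 : (2 : ℤ) ≤ 𝔓.p := by exact_mod_cast h2p
  have h8 := Int.le_of_dvd (by nlinarith) h6
  nlinarith

/-- helper5's frame from a supersingular frame -/
def SSFrame.toSsc {𝔓 : FFPlace} {ρbar : ResidualGaloisRep k} {π₀ : Qb}
    {bs : Module.Basis (Fin 2) k ρbar.V} {φ : Fin 2 → GQ → k} (fr : SSFrame 𝔓 ρbar π₀ bs φ)
    {ζ : Qb} (hζ : IsPrimitiveRoot ζ 𝔓.p) {g₁ : GQ} (hg₁ : g₁ ∈ 𝔓.I) {ξ : Qb}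
    (hξ : IsPrimitiveRoot ξ (𝔓.p ^ 2 - 1)) (hgξ : g₁ π₀ = ξ * π₀) : SscFrame 𝔓 ρbar where
  π₀ := π₀
  ξ := ξ
  ζ := ζ
  g₁ := g₁
  bs := bs
  a₁ := φ 0 g₁
  a₂ := φ 1 g₁
  hπ₀ := fr.pi0
  hζ := hζ
  hg₁ := hg₁
  hξ := hξ
  hgξ := hgξ
  h1 := fr.eig g₁ hg₁ 0
  h2 := fr.eig g₁ hg₁ 1
  ha := by
    have := fr.frob g₁ hg₁ 0
    rwa [zero_add] at this
  hne := fr.ratio_sq_ne_one hg₁ hξ hgξ
  htriv := by
    intro σ hσ
    obtain ⟨hσI, hσπ⟩ := (𝔓.ssc_mem_E0_fix_iff fr.pi0).1 hσ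
    exact fr.rho_fix hσI hσπ

/-- the entries of the tangent matrix on `Gal(ℚ̄/E0)` are the `ε`-parts of the entries of the
lift -/
lemma SSFrame.tangentMat_apply {𝔓 : FFPlace} {ρbar : ResidualGaloisRep k} {π₀ : Qb}
    {bs : Module.Basis (Fin 2) k ρbar.V} {φ : Fin 2 → GQ → k} (fr : SSFrame 𝔓 ρbar π₀ bs φ)
    (r : GQ →* Matrix (Fin 2) (Fin 2) (DualNumber k)) {τ : GQ} (hτ : τ ∈ 𝔓.I) (hτπ : τ π₀ = π₀)
    (i j : Fin 2) : tangentMat (ρbar := ρbar) (b := bs) r τ i j = (r τ i j).snd := by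
  unfold tangentMat
  have h1 : rbarMat ρbar bs τ⁻¹ = 1 := by
    unfold rbarMat
    have h2 : τ⁻¹ π₀ = π₀ := by
      have := congrArg (τ⁻¹ : GQ) hτπ
      rw [AlgEquiv.aut_inv, AlgEquiv.symm_apply_apply] at this
      rw [AlgEquiv.aut_inv]
      exact this.symm
    rw [fr.rho_fix (𝔓.I.inv_mem hτ) h2, Module.End.one_eq_id, LinearMap.toMatrix_id]
  rw [h1, mul_one]
  rfl

/-- **(C-LOC-p) for the flat condition, supersingular case** (WP-E): `ρbar` has no line which is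
stable under the decomposition group at `p`. -/
theorem ff_contractLocP_flat_irr [Finite k] (p : ℕ) [Fact p.Prime] (hp2 : p ≠ 2)
    [Algebra (ZMod p) k] (ρbar : ResidualGaloisRep k) (b : Module.Basis (Fin 2) k ρbar.V)
    (hsplit : ∀ σ : GQ, ∃ α β : k, LinearMap.charpoly (ρbar.ρ σ) = (X - C α) * (X - C β))
    (hirr : ¬ ∃ v₀ : ρbar.V, v₀ ≠ 0 ∧ ∀ σ ∈ (ffPlaceAt p).D, ∃ x : k, ρbar.ρ σ v₀ = x • v₀) :
    ContractLocP p ρbar b (condFlat p) := by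
  classical
  letI := sscAlg p k
  have hp : p.Prime := Fact.out
  have hpk : (((ffPlaceAt p).p : ℕ) : k) = 0 := by
    show ((p : ℕ) : k) = 0
    rw [← map_natCast (algebraMap (ZMod p) k), ZMod.natCast_self, map_zero]
  by_cases hex : ∃ (r : GQ →* Matrix (Fin 2) (Fin 2) (DualNumber k))
      (h : MatCts (DualNumber k) r), IsDualLift ρbar b r ∧ (ofMat r h).IsFlatAt p
  · obtain ⟨r₀, h₀, hr₀, hfl₀⟩ := hex
    obtain ⟨M₀, -, hsc₀⟩ := ff_exists_model_of_flat p r₀ h₀ hfl₀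
    have hpos : 0 < p ^ 2 - 1 := (ffPlaceAt p).ss_sq_sub_one_pos
    obtain ⟨π₀, hπ₀⟩ := IsAlgClosed.exists_pow_nat_eq (-(p : Qb)) hpos
    have hπ₀' : π₀ ^ ((ffPlaceAt p).p ^ 2 - 1) = -((ffPlaceAt p).p : Qb) := hπ₀
    obtain ⟨bs, φ, fr⟩ := ss_exists_frame (ffPlaceAt p) (ffPlaceAt_unr p) ρbar b hpk hsplit hirr
      hr₀ M₀ hsc₀ hπ₀'
    haveI : NeZero p := ⟨hp.ne_zero⟩
    obtain ⟨ζ, hζ⟩ := HasEnoughRootsOfUnity.exists_primitiveRoot Qb p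
    have hζ' : IsPrimitiveRoot ζ (ffPlaceAt p).p := hζ
    obtain ⟨g₁, hg₁, ξ, hξ, hgξ⟩ := (ffPlaceAt p).ssc_exists_tame_gen fr.pi0
    set fr' : SscFrame (ffPlaceAt p) ρbar := fr.toSsc hζ' hg₁ hξ hgξ with hfr'
    refine ssc_contractLocP p fr' b (condFlat p) ?_
    intro ρ' r h hr hdet hequiv hcond
    have hfl : (ofMat r h).IsFlatAt p := isFlatAt_of_isEquiv hequiv hcond.2
    obtain ⟨r', h', hr', hdet', heq', hclass⟩ := tw_exists_conj_lift b bs r h hr hdet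
    have hfl' : (ofMat r' h').IsFlatAt p := isFlatAt_of_isEquiv heq' hfl
    obtain ⟨M, -, -⟩ := ff_exists_model_of_flat p r' h' hfl'
    rw [← hclass]
    obtain ⟨c', hlc, hval, hH1⟩ := tw_resAt_tangentClass_eq (pPrime p) r' h' hr' hdet' 0
    rw [← hH1]
    have hE0 : ∀ {σ : GQ}, σ ∈ fr'.E0.fixingSubgroup ↔ σ ∈ (ffPlaceAt p).I ∧ σ π₀ = π₀ :=
      fun {σ} => (ffPlaceAt p).ssc_mem_E0_fix_iff fr.pi0
    -- the entries of the cocycle
    have hentry : ∀ s, primeLocalToGlobal (pPrime p) s ∈ fr'.E0.fixingSubgroup → ∀ i j : Fin 2,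
        bs.repr (ad0Val ρbar (c' s) (bs j)) i = (r' (primeLocalToGlobal (pPrime p) s) i j).snd := by
      intro s hs i j
      obtain ⟨hsI, hsπ⟩ := hE0.1 hs
      rw [hval s, map_zero, sub_self, add_zero, ← LinearMap.toMatrix_apply]
      have := twAdMat_tangentCocycle (b := bs) r' hr' hdet' (primeLocalToGlobal (pPrime p) s)
      unfold twAdMat at this
      rw [this, fr.tangentMat_apply r' hsI hsπ]
    have honto := (tk_onto p).2
    have hoff : ∀ (i : Fin 2) (ℓ : k →ₗ[ZMod p] ZMod p) (y : Qb), y ≠ 0 →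
        (∀ s, primeLocalToGlobal (pPrime p) s ∈ fr'.E0.fixingSubgroup →
          (primeLocalToGlobal (pPrime p) s) y =
            lfZPow ζ (ℓ (bs.repr (ad0Val ρbar (c' s) (bs i)) (i + 1))) * y) →
        ∃ w ∈ fr'.E0, w ≠ 0 ∧ (ffPlaceAt p).v.Ge (y ^ p / w ^ p - 1)
          (((p ^ 2 + 1 : ℕ) : ℚ) / ((p ^ 2 - 1 : ℕ) : ℚ)) := by
      intro i ℓ y hy0 hy
      have h1 := fr.flat_off (ffPlaceAt_unr p) hp2 hr' h' M hζ' i ℓ hy0 (by
        intro τ hτ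
        obtain ⟨hτI, hτπ⟩ := hE0.1 hτ
        obtain ⟨s, rfl⟩ := honto τ ((ffPlaceAt p).I_le_D hτI)
        rw [hy s hτ, hentry s hτ]
        rfl)
      obtain ⟨w, hw, hw0, hge⟩ := h1
      refine ⟨w, hw, hw0, ?_⟩
      have h2 : (((p ^ 2 + 1 : ℕ) : ℚ)) / ((p ^ 2 - 1 : ℕ) : ℚ) =
          ((p : ℚ) ^ 2 + 1) / ((p : ℚ) ^ 2 - 1) := by
        have h3 : ((p ^ 2 - 1 : ℕ) : ℚ) = (p : ℚ) ^ 2 - 1 := (ffPlaceAt p).ssc_e_cast
        rw [h3]
        push_cast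
        rfl
      rw [h2]
      exact hge
    refine ssc_mem_ssLpAt p fr' c' hlc ?_ ?_ ?_
    · intro s hs
      obtain ⟨hsI, hsπ⟩ := hE0.1 hs
      show bs.repr (ad0Val ρbar (c' s) (bs 0)) 0 = 0
      rw [hentry s hs, fr.flat_diag (ffPlaceAt_unr p) hp2 hr' hdet' h' M _ hsI hsπ 0]
      rfl
    · intro ℓ y hy0 hy
      exact hoff 0 ℓ y hy0 hy
    · intro ℓ y hy0 hy
      exact hoff 1 ℓ y hy0 hy
  · refine ⟨⊥, bot_le, ?_, ?_⟩
    · rw [finrank_bot]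
      exact Nat.zero_le _
    · intro ρ' r h hr hdet hequiv hcond
      exact absurd ⟨r, h, hr, isFlatAt_of_isEquiv hequiv hcond.2⟩ hex

end

end Fermat.Agent.TW
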